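/-
S27 (helper9506 compact-group route) — SPINE: the frozen interface between the packages.

* `RRFacts K F`  : everything packages C/D/T1 need from package A (Riemann's theorem);
* `IsChart`, `IsRS` : everything packages C/D/T1 need from package B (the Riemann surface
  structure on `Place ℂ F`), for an ARBITRARY topology on `Place ℂ F`;
* `picMap`, `picTop` : the map `X^g → Pic0` and the quotient topology on `Pic0`.

Mathlib + Prelude only.  FROZEN (helper9686).
-/
import Mathlib
import Fermat.Prelude.Def_AlgebraicCurve_Repartitions

set_option autoImplicit false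

open AlgebraicCurve

namespace Fermat.Agent.S27.Spine

section General

variable {K F : Type*} [Field K] [Field F] [Algebra K F]

/-- `f` is regular at `Q` and takes the value `c` there. -/
def HasValue (Q : Place K F) (f : F) (c : K) : Prop :=
  f = algebraMap K F c ∨ 0 < Q.ord (f - algebraMap K F c)

open Classical in
/-- The value of `f` at `Q` (junk value `0` when `f` has no value in `K` at `Q`). -/
noncomputable def value (Q : Place K F) (f : F) : K :=
  if h : ∃ c, HasValue Q f c then h.choose else 0

/-- The reduced effective divisor `∑ i, [P i]` of a tuple of places. -/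
noncomputable def tupleDiv {d : ℕ} (P : Fin d → Place K F) : Divisor K F :=
  ∑ i, Finsupp.single (P i) (1 : ℤ)

/-- `l(D) = dim_K L(D)`. -/
noncomputable def ell (D : Divisor K F) : ℕ := Module.finrank K (riemannRochSpace D)

/-- What the analytic packages need from package A (Riemann's theorem), for a function field
over an algebraically closed field. -/
structure RRFacts (K F : Type*) [Field K] [Field F] [Algebra K F] : Prop where
  principal : HasPrincipalDivisors K F
  deg_one : ∀ v : Place K F, v.deg = 1
  finite : ∀ D : Divisor K F, Module.Finite K (riemannRochSpace D)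
  riemann : ∀ D : Divisor K F, Divisor.degree D + 1 - (genusFF K F : ℤ) ≤ (ell D : ℤ)
  add_single_le : ∀ (D : Divisor K F) (P : Place K F), ell (D + Finsupp.single P 1) ≤ ell D + 1
  nonspecial : ∀ S : Finset (Place K F), ∃ P : Fin (genusFF K F) → Place K F,
    Function.Injective P ∧ (∀ i, P i ∉ S) ∧ ell (tupleDiv P) = 1
  infinite : Infinite (Place K F)

open Classical in
/-- The map `X^g → Pic0`, `P ↦ [∑ P_i - g • P₀]` (junk `0` if the degree is not `0`, which does
not happen when all places have degree one). -/
noncomputable def picMap (P₀ : Place K F) {g : ℕ} (P : Fin g → Place K F) : Pic0 K F :=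
  if h : tupleDiv P - g • Finsupp.single P₀ (1 : ℤ) ∈ Divisor.degZero (K := K) (F := F) then
    Pic0.mk ⟨_, h⟩ else 0

end General

section Complex

variable {F : Type*} [Field F] [Algebra ℂ F]

/-- A holomorphic chart of `Place ℂ F` (for a given topology on it): `κ` maps the disc of radius
`ε` homeomorphically onto an open set, `t` is a coordinate function (`t (κ τ) = τ`), functions
regular at `κ τ` are holomorphic at `τ` when read in the chart, and the order of vanishing in the
chart is the order at the place. -/
structure IsChart [TopologicalSpace (Place ℂ F)] (κ : ℂ → Place ℂ F) (ε : ℝ) (t : F) : Prop where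
  pos : 0 < ε
  injOn : Set.InjOn κ (Metric.ball 0 ε)
  continuousOn : ContinuousOn κ (Metric.ball 0 ε)
  isOpen_image : ∀ U : Set ℂ, U ⊆ Metric.ball 0 ε → IsOpen U → IsOpen (κ '' U)
  hasValue_unif : ∀ τ ∈ Metric.ball (0 : ℂ) ε, HasValue (κ τ) t τ
  analyticAt : ∀ (f : F) (τ : ℂ), τ ∈ Metric.ball (0 : ℂ) ε → 0 ≤ (κ τ).ord f →
    AnalyticAt ℂ (fun σ => value (κ σ) f) τ
  order_eq : ∀ (f : F) (τ : ℂ), τ ∈ Metric.ball (0 : ℂ) ε → f ≠ 0 → 0 ≤ (κ τ).ord f →
    analyticOrderAt (fun σ => value (κ σ) f) τ = (((κ τ).ord f).toNat : ℕ∞)

/-- `Place ℂ F`, with the given topology, is a compact connected Riemann surface whose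
holomorphic structure is compatible with the function field (what package B delivers). -/
structure IsRS (F : Type*) [Field F] [Algebra ℂ F] [TopologicalSpace (Place ℂ F)] : Prop where
  compact : CompactSpace (Place ℂ F)
  t2 : T2Space (Place ℂ F)
  connected : ConnectedSpace (Place ℂ F)
  chart : ∀ P : Place ℂ F, ∃ (κ : ℂ → Place ℂ F) (ε : ℝ) (t : F), IsChart κ ε t ∧ κ 0 = P

/-- The quotient topology on `Pic0 ℂ F` along `picMap P₀ : X^g → Pic0`, `g = genusFF ℂ F`. -/
@[reducible] noncomputable def picTop [TopologicalSpace (Place ℂ F)] (P₀ : Place ℂ F) :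
    TopologicalSpace (Pic0 ℂ F) :=
  TopologicalSpace.coinduced (picMap P₀ (g := genusFF ℂ F)) inferInstance

/-- The chart of `Pic0` around `0` attached to a tuple of charts of `X` at the points of `P`. -/
noncomputable def picChart (P₀ : Place ℂ F) {g : ℕ} (P : Fin g → Place ℂ F)
    (κ : Fin g → ℂ → Place ℂ F) (z : Fin g → ℂ) : Pic0 ℂ F :=
  picMap P₀ (fun i => κ i (z i)) - picMap P₀ P

end Complex

end Fermat.Agent.S27.Spine
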