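/-
S27 SPINE bridge: `RRFacts K F` from the statements of package A (skeleton of helper8976,
`Fermat/Agent/S27/A/*.lean`).  No `sorry` of its own.
-/
import Fermat.Agent.S27.Spine.Defs
import Fermat.Agent.S27.A.NonSpecial
import Fermat.Agent.S27.A.Bridge

set_option autoImplicit false

open AlgebraicCurve

namespace Fermat.Agent.S27.Spine

variable {K F : Type*} [Field K] [Field F] [Algebra K F]

/-- Package A delivers `RRFacts`. -/
theorem rrFacts_of_hyp [IsAlgClosed K] (H : A.Hyp K F) : RRFacts K F := by
  have hne : Nonempty (Place K F) := A.nonempty_place H
  have hpr : HasPrincipalDivisors K F := H.principal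
  refine
    { principal := H.principal
      deg_one := A.deg_eq_one H
      finite := A.finite_ell H
      riemann := ?_
      add_single_le := ?_
      nonspecial := A.exists_nonspecial H
      infinite := A.infinite_place H }
  · intro D
    have h := A.riemann' H D
    have h2 : (0 : ℤ) ≤ (A.spec D : ℤ) := Int.natCast_nonneg _
    show Divisor.degree D + 1 - (genusFF K F : ℤ) ≤ ((A.ell D : ℕ) : ℤ)
    linarith
  · intro D P
    have hle : D ≤ D + Finsupp.single P 1 := by
      have : (0 : Divisor K F) ≤ Finsupp.single P 1 := by
        intro v
        by_cases hv : v = P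
        · subst hv; simp
        · simp [Finsupp.single_apply, Ne.symm hv]
      simpa using add_le_add_left this D
    have h := A.ell_sub_le (K := K) (F := F) H.finiteResidue hle
    have hdeg : Divisor.degree (D + Finsupp.single P 1) - Divisor.degree D = 1 := by
      rw [map_add, Divisor.degree_single, A.deg_eq_one H P]
      simp
    rw [hdeg] at h
    show A.ell (D + Finsupp.single P 1) ≤ A.ell D + 1
    omega

/-- In the setting of S27 (over `ℂ` or any algebraically closed field of characteristic zero). -/
theorem rrFacts_of_isCurveOver [IsAlgClosed K] [CharZero K] [IsCurveOver K F]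
    [Algebra.EssFiniteType K F] : RRFacts K F :=
  rrFacts_of_hyp A.hyp_of_isCurveOver

end Fermat.Agent.S27.Spine
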