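/-
S27 SPINE leaf C1: the incidence relation "∑ [T_i] ≤ div(s) + M" is closed (upper
semicontinuity of zero divisors; Hurwitz-type argument in the charts).  FROZEN statement
(helper9686 spine cbaf2a64); proof by helper6494.

Auxiliary declarations live in `Fermat.Agent.S27.Spine.C1h6494`.  The Hurwitz-type lemma is
`Fermat.Agent.S27.Hurwitz6362.zeros_le_of_close_family` (helper6362, copied verbatim); basic facts
on `Place.ord` come from the landed S24 library (`Fermat.Agent.S24.A564.SO`).
-/
import Fermat.Agent.S27.Spine.Defs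
import Fermat.Agent.S27.Hurwitz6362
import Fermat.Agent.S24.A564.PlaceBasic

set_option autoImplicit false

open AlgebraicCurve

namespace Fermat.Agent.S27.Spine

namespace C1h6494

open Fermat.Agent.S24.A564.SO

section General

variable {K F : Type*} [Field K] [Field F] [Algebra K F]

theorem adicValuation_algebraMap_eq_one (Q : Place K F) {c : K} (hc : c ≠ 0) :
    Q.adicValuation (algebraMap K F c) = 1 := by
  have h0 : algebraMap K F c ≠ 0 := by simpa using hc
  rw [Q.adicValuation_eq_exp_neg_ord h0, Place_ord_algebraMap, neg_zero, WithZero.exp_zero]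

/-- `HasValue` in terms of the valuation. -/
theorem hasValue_iff (Q : Place K F) (f : F) (c : K) :
    HasValue Q f c ↔ Q.adicValuation (f - algebraMap K F c) < 1 := by
  unfold HasValue
  by_cases h : f - algebraMap K F c = 0
  · have h' : f = algebraMap K F c := sub_eq_zero.mp h
    simp [h']
  · rw [Q.adicValuation_eq_exp_neg_ord h, ← WithZero.exp_zero, WithZero.exp_lt_exp]
    constructor
    · rintro (h' | h')
      · exact absurd (sub_eq_zero.mpr h') h
      · omega
    · intro h'
      right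
      omega

theorem hasValue_unique {Q : Place K F} {f : F} {c c' : K} (h : HasValue Q f c)
    (h' : HasValue Q f c') : c = c' := by
  rw [hasValue_iff] at h h'
  by_contra hne
  have hd : c' - c ≠ 0 := sub_ne_zero.mpr (Ne.symm hne)
  have h1 : Q.adicValuation (algebraMap K F (c' - c)) = 1 := adicValuation_algebraMap_eq_one Q hd
  have h2 : algebraMap K F (c' - c) = (f - algebraMap K F c) - (f - algebraMap K F c') := by
    rw [map_sub]; ring
  rw [h2] at h1
  have h3 := Valuation.map_sub Q.adicValuation (f - algebraMap K F c) (f - algebraMap K F c')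
  rw [h1] at h3
  exact absurd h3 (not_le.mpr (max_lt h h'))

theorem value_eq {Q : Place K F} {f : F} {c : K} (h : HasValue Q f c) : value Q f = c := by
  classical
  unfold value
  rw [dif_pos ⟨c, h⟩]
  exact hasValue_unique (Exists.choose_spec (⟨c, h⟩ : ∃ c, HasValue Q f c)) h

theorem hasValue_zero (Q : Place K F) : HasValue Q (0 : F) (0 : K) := by
  left
  rw [map_zero]

theorem hasValue_add {Q : Place K F} {f g : F} {c d : K} (hf : HasValue Q f c)
    (hg : HasValue Q g d) : HasValue Q (f + g) (c + d) := by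
  rw [hasValue_iff] at hf hg ⊢
  have h2 : f + g - algebraMap K F (c + d) = (f - algebraMap K F c) + (g - algebraMap K F d) := by
    rw [map_add]; ring
  rw [h2]
  exact lt_of_le_of_lt (Valuation.map_add _ _ _) (max_lt hf hg)

theorem hasValue_smul {Q : Place K F} {f : F} {c : K} (a : K) (hf : HasValue Q f c) :
    HasValue Q (a • f) (a * c) := by
  rw [hasValue_iff] at hf ⊢
  have h2 : a • f - algebraMap K F (a * c) = algebraMap K F a * (f - algebraMap K F c) := by
    rw [map_mul, Algebra.smul_def]; ring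
  rw [h2, map_mul]
  exact lt_of_le_of_lt (mul_le_of_le_one_left' (Q.adicValuation_algebraMap_le_one a)) hf

theorem hasValue_sum {Q : Place K F} {n : ℕ} (c : Fin n → K) (f : Fin n → F) (a : Fin n → K)
    (hf : ∀ j, HasValue Q (f j) (a j)) :
    HasValue Q (∑ j, c j • f j) (∑ j, c j * a j) := by
  classical
  have key : ∀ s : Finset (Fin n), HasValue Q (∑ j ∈ s, c j • f j) (∑ j ∈ s, c j * a j) := by
    intro s
    induction s using Finset.induction_on with
    | empty => simpa using hasValue_zero Q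
    | insert j s hj ih =>
      rw [Finset.sum_insert hj, Finset.sum_insert hj]
      exact hasValue_add (hasValue_smul (c j) (hf j)) ih
  exact key Finset.univ

/-- A function regular at a place of degree one has a value there. -/
theorem exists_hasValue {Q : Place K F} (hdeg : Q.deg = 1) {f : F} (hf : 0 ≤ Q.ord f) :
    ∃ c : K, HasValue Q f c := by
  have hmem : f ∈ Q.toValuationSubring := Place_mem_of_ord_nonneg Q hf
  have hsurj : Function.Surjective (algebraMap K Q.ResidueField) := by
    have h1 : Module.finrank K Q.ResidueField = 1 := hdeg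
    have h2 : (⊥ : Subalgebra K Q.ResidueField) = ⊤ := Subalgebra.bot_eq_top_of_finrank_eq_one h1
    exact Algebra.surjective_algebraMap_iff.mpr h2.symm
  obtain ⟨c, hc⟩ := hsurj (IsLocalRing.residue Q.toValuationSubring ⟨f, hmem⟩)
  refine ⟨c, ?_⟩
  rw [hasValue_iff]
  set d : Q.toValuationSubring := ⟨f, hmem⟩ - algebraMap K Q.toValuationSubring c with hd
  have hdm : d ∈ IsLocalRing.maximalIdeal Q.toValuationSubring := by
    rw [← IsLocalRing.residue_eq_zero_iff, hd, map_sub, sub_eq_zero]
    exact hc.symm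
  have hdF : (d : F) = f - algebraMap K F c := rfl
  rw [← hdF, Q.adicValuation_coe]
  exact (IsDedekindDomain.HeightOneSpectrum.intValuation_lt_one_iff_mem _ _).mpr hdm

open Classical in
theorem tupleDiv_apply {d : ℕ} (T : Fin d → Place K F) (Q : Place K F) :
    tupleDiv T Q = ((Finset.univ.filter (fun i => T i = Q)).card : ℤ) := by
  unfold tupleDiv
  rw [Finsupp.finsetSum_apply]
  simp only [Finsupp.single_apply]
  rw [Finset.sum_boole]

end General

section Chart

open Topology

variable {F : Type*} [Field F] [Algebra ℂ F] [TopologicalSpace (Place ℂ F)]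
  {κ : ℂ → Place ℂ F} {ε : ℝ} {t : F}

theorem chart_value_t (hκ : IsChart κ ε t) {σ : ℂ} (hσ : σ ∈ Metric.ball (0 : ℂ) ε) :
    value (κ σ) t = σ :=
  value_eq (hκ.hasValue_unif σ hσ)

theorem chart_t_ne_zero (hκ : IsChart κ ε t) : t ≠ 0 := by
  intro h0
  have hε := hκ.pos
  have hσ : (((ε / 2 : ℝ)) : ℂ) ∈ Metric.ball (0 : ℂ) ε := by
    rw [mem_ball_zero_iff, Complex.norm_real, Real.norm_eq_abs, abs_of_pos (half_pos hε)]
    linarith
  have hne : (((ε / 2 : ℝ)) : ℂ) ≠ 0 := by
    rw [Ne, Complex.ofReal_eq_zero]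
    exact (half_pos hε).ne'
  have h := (hasValue_iff _ _ _).mp (hκ.hasValue_unif _ hσ)
  rw [h0, zero_sub, Valuation.map_neg, adicValuation_algebraMap_eq_one _ hne] at h
  exact lt_irrefl _ h

theorem chart_ord_t_of_ne (hκ : IsChart κ ε t) {σ : ℂ} (hσ : σ ∈ Metric.ball (0 : ℂ) ε)
    (hσ0 : σ ≠ 0) : (κ σ).ord t = 0 := by
  have h := (hasValue_iff _ _ _).mp (hκ.hasValue_unif σ hσ)
  have h1 := adicValuation_algebraMap_eq_one (κ σ) hσ0
  have h2 : t = (t - algebraMap ℂ F σ) + algebraMap ℂ F σ := by ring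
  have h3 : (κ σ).adicValuation t = 1 := by
    rw [h2, Valuation.map_add_eq_of_lt_right _ (by rw [h1]; exact h), h1]
  unfold Place.ord
  rw [h3]
  simp

theorem chart_ord_t_zero (hκ : IsChart κ ε t) : (κ 0).ord t = 1 := by
  have ht := chart_t_ne_zero hκ
  have h0mem : (0 : ℂ) ∈ Metric.ball (0 : ℂ) ε := Metric.mem_ball_self hκ.pos
  have hv := hκ.hasValue_unif 0 h0mem
  have hpos : 0 < (κ 0).ord t := by
    rcases hv with h | h
    · rw [map_zero] at h
      exact absurd h ht
    · rwa [map_zero, sub_zero] at h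
  have ho := hκ.order_eq t 0 h0mem ht hpos.le
  have hev : (fun σ => value (κ σ) t) =ᶠ[𝓝 0] id := by
    filter_upwards [Metric.ball_mem_nhds (0 : ℂ) hκ.pos] with σ hσ
    exact chart_value_t hκ hσ
  rw [analyticOrderAt_congr hev, analyticOrderAt_id] at ho
  have h1 : ((κ 0).ord t).toNat = 1 := by exact_mod_cast ho.symm
  omega

end Chart

end C1h6494

open C1h6494 Topology in
/-- **C1.** For `b j ∈ L(M)` the set of `(T, c) ∈ X^d × ℂ^n` such that `s_c := ∑ c_j b_j` is `0`
or `∑ [T_i] ≤ div(s_c) + M` is closed. -/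
theorem isClosed_incidence {F : Type*} [Field F] [Algebra ℂ F] [TopologicalSpace (Place ℂ F)]
    (hRS : IsRS F) (hRR : RRFacts ℂ F) (M : Divisor ℂ F) {d n : ℕ}
    (b : Fin n → F) (hb : ∀ j, b j ∈ riemannRochSpace M) :
    IsClosed {p : (Fin d → Place ℂ F) × (Fin n → ℂ) |
      (∑ j, p.2 j • b j = 0) ∨
        ∀ Q : Place ℂ F, tupleDiv p.1 Q ≤ Q.ord (∑ j, p.2 j • b j) + M Q} := by
  classical
  rw [← isOpen_compl_iff, isOpen_iff_mem_nhds]
  rintro ⟨T, c⟩ hTc
  simp only [Set.mem_compl_iff, Set.mem_ofPred_eq, not_or, not_forall, not_le] at hTc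
  obtain ⟨hs0, Q, hQ⟩ := hTc
  -- a chart at `Q`
  obtain ⟨κ, ε, t, hκ, hκ0⟩ := hRS.chart Q
  have ht0 : t ≠ 0 := chart_t_ne_zero hκ
  set s : (Fin n → ℂ) → F := fun c' => ∑ j, c' j • b j with hs
  have hsmem : ∀ c', s c' ∈ riemannRochSpace M := fun c' =>
    Submodule.sum_mem _ (fun j _ => Submodule.smul_mem _ _ (hb j))
  set e : ℤ := M Q with he
  set f : Fin n → F := fun j => b j * t ^ e with hf
  have hsf : ∀ c', s c' * t ^ e = ∑ j, c' j • f j := by
    intro c'
    simp only [hs, hf]
    rw [Finset.sum_mul]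
    exact Finset.sum_congr rfl (fun j _ => by rw [smul_mul_assoc])
  -- the finitely many other points of the support of `M` in the chart
  set B : Set ℂ := {z | z ∈ Metric.ball (0 : ℂ) ε ∧ z ≠ 0 ∧ M (κ z) ≠ 0} with hB
  have hBfin : B.Finite := by
    refine Set.Finite.of_finite_image ?_ (hκ.injOn.mono (fun z hz => hz.1))
    refine M.support.finite_toSet.subset ?_
    rintro _ ⟨z, hz, rfl⟩
    exact Finsupp.mem_support_iff.mpr hz.2.2
  have h0B : (0 : ℂ) ∈ Bᶜ := fun h => h.2.1 rfl
  obtain ⟨r₁, hr₁, hball⟩ := Metric.isOpen_iff.mp hBfin.isClosed.isOpen_compl 0 h0B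
  set r₀ : ℝ := min ε r₁ with hr₀def
  have hr₀ : 0 < r₀ := lt_min hκ.pos hr₁
  have hmemε : ∀ z : ℂ, ‖z‖ < r₀ → z ∈ Metric.ball (0 : ℂ) ε := fun z hz => by
    rw [mem_ball_zero_iff]
    exact lt_of_lt_of_le hz (min_le_left _ _)
  have hM0 : ∀ z : ℂ, ‖z‖ < r₀ → z ≠ 0 → M (κ z) = 0 := by
    intro z hz hz0
    by_contra hne
    have hzB : z ∈ B := ⟨hmemε z hz, hz0, hne⟩
    have hzb : z ∈ Metric.ball (0 : ℂ) r₁ := by
      rw [mem_ball_zero_iff]
      exact lt_of_lt_of_le hz (min_le_right _ _)
    exact hball hzb hzB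
  have hordt : ∀ z : ℂ, ‖z‖ < r₀ → (κ z).ord t = if z = 0 then 1 else 0 := by
    intro z hz
    split_ifs with h
    · rw [h]
      exact chart_ord_t_zero hκ
    · exact chart_ord_t_of_ne hκ (hmemε z hz) h
  -- elements of `L(M)` times `t ^ e` are regular in the chart
  have hreg : ∀ g ∈ riemannRochSpace M, ∀ z : ℂ, ‖z‖ < r₀ →
      0 ≤ (κ z).ord (g * t ^ e) ∧
        (g ≠ 0 → (κ z).ord (g * t ^ e) = (κ z).ord g + (if z = 0 then e else 0)) := by
    intro g hg z hz
    by_cases hg0 : g = 0
    · subst hg0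
      simp
    have h1 := (mem_riemannRochSpace_iff.mp hg (κ z)).resolve_left hg0
    have h2 : (κ z).ord (g * t ^ e) = (κ z).ord g + e * (κ z).ord t := by
      rw [(κ z).ord_mul hg0 (zpow_ne_zero _ ht0), (κ z).ord_zpow]
    rw [hordt z hz] at h2
    by_cases hz0 : z = 0
    · rw [if_pos hz0] at h2 ⊢
      rw [hz0, hκ0] at h1 h2 ⊢
      rw [mul_one] at h2
      refine ⟨by rw [h2]; omega, fun _ => h2⟩
    · rw [if_neg hz0] at h2 ⊢
      rw [hM0 z hz hz0] at h1
      rw [mul_zero] at h2
      refine ⟨by rw [h2]; omega, fun _ => h2⟩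
  -- the coordinate functions of the sections in the chart
  set β : Fin n → ℂ → ℂ := fun j z => value (κ z) (f j) with hβ
  have hβval : ∀ j (z : ℂ), ‖z‖ < r₀ → HasValue (κ z) (f j) (β j z) := by
    intro j z hz
    obtain ⟨a, ha⟩ := exists_hasValue (hRR.deg_one (κ z)) (hreg (b j) (hb j) z hz).1
    have hva : β j z = a := value_eq ha
    rw [hva]
    exact ha
  have hβan : ∀ j, AnalyticOnNhd ℂ (β j) (Metric.closedBall 0 (r₀ / 2)) := by
    intro j z hz
    have hz' : ‖z‖ < r₀ := by
      rw [mem_closedBall_zero_iff] at hz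
      linarith
    exact hκ.analyticAt (f j) z (hmemε z hz') (hreg (b j) (hb j) z hz').1
  have hval : ∀ (c' : Fin n → ℂ) (z : ℂ), ‖z‖ < r₀ →
      value (κ z) (s c' * t ^ e) = ∑ j, c' j * β j z := by
    intro c' z hz
    rw [hsf]
    exact value_eq (hasValue_sum c' f (fun j => β j z) (fun j => hβval j z hz))
  have horder : ∀ c' : Fin n → ℂ, s c' ≠ 0 → ∀ z : ℂ, ‖z‖ < r₀ →
      analyticOrderAt (fun w => ∑ j, c' j * β j w) z =
        ((((κ z).ord (s c') + (if z = 0 then e else 0)).toNat : ℕ) : ℕ∞) := by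
    intro c' hc' z hz
    have hev : (fun w => ∑ j, c' j * β j w) =ᶠ[𝓝 z] (fun w => value (κ w) (s c' * t ^ e)) := by
      have hmem : Metric.ball (0 : ℂ) r₀ ∈ 𝓝 z :=
        Metric.isOpen_ball.mem_nhds (by rw [mem_ball_zero_iff]; exact hz)
      filter_upwards [hmem] with w hw
      exact (hval c' w (by rw [mem_ball_zero_iff] at hw; exact hw)).symm
    rw [analyticOrderAt_congr hev, hκ.order_eq (s c' * t ^ e) z (hmemε z hz)
      (mul_ne_zero hc' (zpow_ne_zero _ ht0)) (hreg _ (hsmem c') z hz).1,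
      (hreg _ (hsmem c') z hz).2 hc']
  have h0r : ‖(0 : ℂ)‖ < r₀ := by rw [norm_zero]; exact hr₀
  set k : ℕ := (Q.ord (s c) + e).toNat with hkdef
  have hk : analyticOrderAt (fun w => ∑ j, c j * β j w) 0 = k := by
    rw [horder c hs0 0 h0r, if_pos rfl, hκ0]
  have hkint : (k : ℤ) = Q.ord (s c) + e := by
    have h1 := (hreg _ (hsmem c) 0 h0r).1
    have h2 := (hreg _ (hsmem c) 0 h0r).2 hs0
    rw [if_pos rfl, hκ0] at h2
    rw [hκ0, h2] at h1
    exact Int.toNat_of_nonneg h1
  -- Hurwitz
  obtain ⟨ρ, δ, hρ, hρr, hδ, H⟩ :=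
    Hurwitz6362.zeros_le_of_close_family (half_pos hr₀) hβan c hk
  have hρr₀ : ρ < r₀ := by linarith
  have hρε : ρ ≤ ε := le_trans hρr₀.le (min_le_left _ _)
  set I : Finset (Fin d) := Finset.univ.filter (fun i => T i = Q) with hI
  have hIcard : (I.card : ℤ) = tupleDiv T Q := (tupleDiv_apply T Q).symm
  have hev1 : ∀ᶠ p in 𝓝 (T, c), ∀ i, T i = Q →
      (p : (Fin d → Place ℂ F) × (Fin n → ℂ)).1 i ∈ κ '' Metric.ball 0 ρ := by
    rw [Filter.eventually_all]
    intro i
    by_cases hi : T i = Q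
    · have hopen : IsOpen (κ '' Metric.ball 0 ρ) :=
        hκ.isOpen_image _ (Metric.ball_subset_ball hρε) Metric.isOpen_ball
      have hcont : Continuous (fun p : (Fin d → Place ℂ F) × (Fin n → ℂ) => p.1 i) :=
        (continuous_apply i).comp continuous_fst
      have hmem : (fun p : (Fin d → Place ℂ F) × (Fin n → ℂ) => p.1 i) (T, c) ∈
          κ '' Metric.ball 0 ρ := ⟨0, Metric.mem_ball_self hρ, by rw [hκ0]; exact hi.symm⟩
      filter_upwards [hcont.continuousAt.preimage_mem_nhds (hopen.mem_nhds hmem)] with p hp _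
      exact hp
    · exact Filter.Eventually.of_forall (fun p h => absurd h hi)
  have hev2 : ∀ᶠ p in 𝓝 (T, c), ∀ j,
      ‖(p : (Fin d → Place ℂ F) × (Fin n → ℂ)).2 j - c j‖ ≤ δ := by
    rw [Filter.eventually_all]
    intro j
    have hcont : Continuous (fun p : (Fin d → Place ℂ F) × (Fin n → ℂ) => ‖p.2 j - c j‖) :=
      (((continuous_apply j).comp continuous_snd).sub continuous_const).norm
    have hlt : (fun p : (Fin d → Place ℂ F) × (Fin n → ℂ) => ‖p.2 j - c j‖) (T, c) < δ := by
      simp only [sub_self, norm_zero]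
      exact hδ
    filter_upwards [hcont.continuousAt.eventually (gt_mem_nhds hlt)] with p hp
    exact le_of_lt hp
  filter_upwards [hev1, hev2] with p hp1 hp2
  obtain ⟨T', c'⟩ := p
  simp only [Set.mem_compl_iff, Set.mem_ofPred_eq]
  intro hpS
  by_cases hs' : s c' = 0
  · -- the zero section has infinite order
    have htop : analyticOrderAt (fun w => ∑ j, c' j * β j w) 0 = ⊤ := by
      rw [analyticOrderAt_eq_top]
      filter_upwards [Metric.ball_mem_nhds (0 : ℂ) hr₀] with w hw
      rw [← hval c' w (by rw [mem_ball_zero_iff] at hw; exact hw), hs', zero_mul]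
      exact value_eq (hasValue_zero _)
    have h1 := H c' hp2 {0} (fun _ => k + 1) (by simp [hρ]) (by
      intro a ha
      rw [Finset.mem_singleton] at ha
      rw [ha, htop]
      exact le_top)
    simp at h1
  · have hdiv := hpS.resolve_left hs'
    -- parameters of the points of `T'` near `Q`
    have hex : ∀ i, ∃ a : ℂ, T i = Q → (a ∈ Metric.ball (0 : ℂ) ρ ∧ κ a = T' i) := by
      intro i
      by_cases hi : T i = Q
      · obtain ⟨a, ha, hab⟩ := hp1 i hi
        exact ⟨a, fun _ => ⟨ha, hab⟩⟩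
      · exact ⟨0, fun h => absurd h hi⟩
    choose a ha using hex
    set A : Finset ℂ := I.image a with hA
    set nfun : ℂ → ℕ := fun z => (I.filter (fun i => a i = z)).card with hnfun
    have hsum : ∑ z ∈ A, nfun z = I.card := (Finset.card_eq_sum_card_image a I).symm
    have hA1 : ∀ z ∈ A, ‖z‖ < ρ := by
      intro z hz
      obtain ⟨i, hi, rfl⟩ := Finset.mem_image.mp hz
      have hiQ : T i = Q := (Finset.mem_filter.mp hi).2
      have := (ha i hiQ).1
      rwa [mem_ball_zero_iff] at this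
    have hA2 : ∀ z ∈ A, (nfun z : ℕ∞) ≤ analyticOrderAt (fun w => ∑ j, c' j * β j w) z := by
      intro z hz
      have hz0 : ‖z‖ < r₀ := lt_trans (hA1 z hz) hρr₀
      rw [horder c' hs' z hz0]
      have h1 : (nfun z : ℤ) ≤ tupleDiv T' (κ z) := by
        rw [tupleDiv_apply]
        norm_cast
        apply Finset.card_le_card
        intro i hi
        rw [Finset.mem_filter] at hi
        have hiQ : T i = Q := (Finset.mem_filter.mp hi.1).2
        rw [Finset.mem_filter]
        refine ⟨Finset.mem_univ _, ?_⟩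
        rw [← hi.2]
        exact ((ha i hiQ).2).symm
      have h2 := hdiv (κ z)
      have h3 : M (κ z) = if z = 0 then e else 0 := by
        split_ifs with h
        · rw [h, hκ0]
        · exact hM0 z hz0 h
      have h4 : (nfun z : ℤ) ≤ (κ z).ord (s c') + (if z = 0 then e else 0) := by
        rw [← h3]
        exact h1.trans h2
      have h5 : nfun z ≤ ((κ z).ord (s c') + (if z = 0 then e else 0)).toNat := by
        omega
      exact_mod_cast h5
    have hH := H c' hp2 A nfun hA1 hA2
    rw [hsum] at hH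
    have : (I.card : ℤ) ≤ (k : ℤ) := by exact_mod_cast hH
    rw [hIcard, hkint] at this
    have hQ' : Q.ord (s c) + e < tupleDiv T Q := hQ
    omega

end Fermat.Agent.S27.Spine
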