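/-
S27 SPINE leaf C2: linear equivalence of tuples is a closed relation.  FROZEN statement
(skeleton of helper9686); proof by helper3866.

Proof.  Fix `N` with `deg N = g + b`.  Then `∑ P + C - ∑ Q` is principal iff there are
`T ∈ X^g`, `0 ≠ s ∈ L(N - C)` and `0 ≠ s' ∈ L(N)` with `∑ T + ∑ P ≤ div(s) + N - C` and
`∑ T + ∑ Q ≤ div(s') + N` (both are then equalities by a degree count).  By C1 these two
conditions are closed in `(P, Q, T, c, c')`, `c, c'` coordinates on the unit spheres, and the
projection along the compact `X^g × S × S` is a closed map.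
-/
import Fermat.Agent.S27.Spine.C1

set_option autoImplicit false

open AlgebraicCurve

namespace Fermat.Agent.S27.Spine

namespace C2h3866

section General

variable {K F : Type*} [Field K] [Field F] [Algebra K F]

theorem tupleDiv_append {m n : ℕ} (T : Fin m → Place K F) (P : Fin n → Place K F) :
    tupleDiv (Fin.append T P) = tupleDiv T + tupleDiv P := by
  unfold tupleDiv
  rw [Fin.sum_univ_add]
  simp [Fin.append_left, Fin.append_right]

theorem tupleDiv_cons {n : ℕ} (v : Place K F) (T : Fin n → Place K F) :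
    tupleDiv (Fin.cons v T : Fin (n + 1) → Place K F) = Finsupp.single v 1 + tupleDiv T := by
  unfold tupleDiv
  rw [Fin.sum_univ_succ]
  simp

theorem tupleDiv_apply_nonneg {n : ℕ} (T : Fin n → Place K F) (v : Place K F) :
    0 ≤ tupleDiv T v := by
  classical
  unfold tupleDiv
  rw [Finsupp.finsetSum_apply]
  refine Finset.sum_nonneg fun i _ => ?_
  rw [Finsupp.single_apply]
  split_ifs <;> norm_num

theorem degree_tupleDiv (hdeg : ∀ v : Place K F, v.deg = 1) {n : ℕ} (T : Fin n → Place K F) :
    Divisor.degree (tupleDiv T) = n := by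
  unfold tupleDiv
  rw [map_sum]
  simp [Divisor.degree_single, hdeg]

theorem degree_eq_sum (hdeg : ∀ v : Place K F, v.deg = 1) (E : Divisor K F) :
    Divisor.degree E = E.sum fun _ n => n := by
  unfold Divisor.degree
  rw [Finsupp.liftAddHom_apply]
  refine Finsupp.sum_congr fun v _ => ?_
  simp [hdeg]

theorem eq_zero_of_nonneg_of_degree_eq_zero (hdeg : ∀ v : Place K F, v.deg = 1)
    {E : Divisor K F} (hE : ∀ v, 0 ≤ E v) (h0 : Divisor.degree E = 0) : E = 0 := by
  rw [degree_eq_sum hdeg] at h0
  ext v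
  by_contra hv
  have h := (Finset.sum_eq_zero_iff_of_nonneg (fun w _ => hE w)).mp h0 v
    (Finsupp.mem_support_iff.mpr hv)
  exact hv h

theorem exists_tuple_of_nonneg (hdeg : ∀ v : Place K F, v.deg = 1) :
    ∀ (n : ℕ) (E : Divisor K F), (∀ v, 0 ≤ E v) → Divisor.degree E = n →
      ∃ T : Fin n → Place K F, tupleDiv T = E
  | 0, E, hE, hd => by
    refine ⟨Fin.elim0, ?_⟩
    rw [eq_zero_of_nonneg_of_degree_eq_zero hdeg hE (by simpa using hd)]
    simp [tupleDiv]
  | n + 1, E, hE, hd => by
    have hex : ∃ v, 0 < E v := by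
      by_contra hcon
      simp only [not_exists, not_lt] at hcon
      have hE0 : E = 0 := by
        ext v
        exact le_antisymm (hcon v) (hE v)
      rw [hE0, map_zero] at hd
      have : (0 : ℤ) < ((n + 1 : ℕ) : ℤ) := by positivity
      omega
    obtain ⟨v, hv⟩ := hex
    have hE' : ∀ w, 0 ≤ (E - Finsupp.single v (1 : ℤ) : Divisor K F) w := by
      intro w
      by_cases hw : w = v
      · subst hw
        rw [Finsupp.sub_apply, Finsupp.single_eq_same]
        omega
      · have : (Finsupp.single v (1 : ℤ)) w = 0 := by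
          classical
          rw [Finsupp.single_apply, if_neg (Ne.symm hw)]
        rw [Finsupp.sub_apply, this, sub_zero]
        exact hE w
    have hd' : Divisor.degree (E - Finsupp.single v 1) = n := by
      rw [map_sub, hd, Divisor.degree_single, hdeg]
      push_cast
      ring
    obtain ⟨T, hT⟩ := exists_tuple_of_nonneg hdeg n _ hE' hd'
    exact ⟨Fin.cons v T, by rw [tupleDiv_cons, hT]; abel⟩

theorem ord_algebraMap (v : Place K F) {c : K} (hc : c ≠ 0) : v.ord (algebraMap K F c) = 0 := by
  have hc' : algebraMap K F c ≠ 0 := by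
    simpa using hc
  have h1 : 0 ≤ v.ord (algebraMap K F c) :=
    (v.adicValuation_le_one_iff.mp (v.adicValuation_algebraMap_le_one c)).resolve_left hc'
  have h2 : 0 ≤ v.ord (algebraMap K F c⁻¹) :=
    (v.adicValuation_le_one_iff.mp (v.adicValuation_algebraMap_le_one c⁻¹)).resolve_left
      (by simpa using hc)
  rw [map_inv₀, v.ord_inv] at h2
  omega

theorem ord_smul_of_ne_zero (v : Place K F) {c : K} (hc : c ≠ 0) (f : F) :
    v.ord (c • f) = v.ord f := by
  rcases eq_or_ne f 0 with rfl | hf
  · simp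
  · rw [Algebra.smul_def, v.ord_mul (by simpa using hc) hf, ord_algebraMap v hc, zero_add]

theorem degree_eq_zero_of_ord (hP : HasPrincipalDivisors K F) {f : F} (hf : f ≠ 0)
    {D : Divisor K F} (hD : ∀ v : Place K F, D v = v.ord f) : Divisor.degree D = 0 := by
  obtain ⟨D', h1, h2⟩ := hP.exists_divisor f hf
  have : D = D' := Finsupp.ext fun v => by rw [hD, h1]
  rw [this, h2]

theorem sum_smul_basis_coe {D : Divisor K F} {n : ℕ}
    (B : Module.Basis (Fin n) K (riemannRochSpace D)) (c : Fin n → K) :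
    ∑ j, c j • (B j : F) = ((B.equivFun.symm c : riemannRochSpace D) : F) := by
  rw [Module.Basis.equivFun_symm_apply]
  simp

theorem continuous_append {X Z : Type*} [TopologicalSpace X] [TopologicalSpace Z] {m n : ℕ}
    {u : Z → Fin m → X} {w : Z → Fin n → X} (hu : Continuous u) (hw : Continuous w) :
    Continuous fun z => Fin.append (u z) (w z) := by
  refine continuous_pi fun i => ?_
  refine Fin.addCases (fun j => ?_) (fun j => ?_) i
  · have h : (fun z => Fin.append (u z) (w z) (Fin.castAdd n j)) = fun z => u z j := by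
      funext z
      simp [Fin.append_left]
    rw [h]
    exact (continuous_apply j).comp hu
  · have h : (fun z => Fin.append (u z) (w z) (Fin.natAdd m j)) = fun z => w z j := by
      funext z
      simp [Fin.append_right]
    rw [h]
    exact (continuous_apply j).comp hw

end General

end C2h3866

variable {F : Type*} [Field F] [Algebra ℂ F] [TopologicalSpace (Place ℂ F)]

open C2h3866 in
/-- **C2.** For a fixed divisor `C`, the set of `(P, Q) ∈ X^a × X^b` with `∑ [P_i] + C ∼ ∑ [Q_j]`
is closed. -/
theorem isClosed_linEquiv (hRS : IsRS F) (hRR : RRFacts ℂ F) (a b : ℕ) (C : Divisor ℂ F) :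
    IsClosed {p : (Fin a → Place ℂ F) × (Fin b → Place ℂ F) |
      tupleDiv p.1 + C - tupleDiv p.2 ∈ Divisor.principal (K := ℂ) (F := F)} := by
  classical
  have := hRS.compact
  have hdeg1 := hRR.deg_one
  by_cases hdeg : (a : ℤ) + Divisor.degree C = b
  swap
  · convert isClosed_empty
    ext p
    simp only [Set.mem_empty_iff_false, iff_false]
    rintro ⟨f, hf, hD⟩
    have h0 := degree_eq_zero_of_ord hRR.principal hf hD
    rw [map_sub, map_add, degree_tupleDiv hdeg1, degree_tupleDiv hdeg1] at h0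
    exact hdeg (by linarith)
  obtain ⟨P₀⟩ : Nonempty (Place ℂ F) := by
    have := hRR.infinite
    infer_instance
  set g := genusFF ℂ F with hg
  set N : Divisor ℂ F := Finsupp.single P₀ ((g + b : ℕ) : ℤ) with hNdef
  have hN : Divisor.degree N = ((g + b : ℕ) : ℤ) := by
    simp [hNdef, Divisor.degree_single, hdeg1]
  set M₁ : Divisor ℂ F := N - C with hM₁
  have := hRR.finite M₁
  have := hRR.finite N
  set n₁ := Module.finrank ℂ (riemannRochSpace M₁) with hn₁
  set n₂ := Module.finrank ℂ (riemannRochSpace N) with hn₂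
  let B₁ : Module.Basis (Fin n₁) ℂ (riemannRochSpace M₁) := Module.finBasis ℂ _
  let B₂ : Module.Basis (Fin n₂) ℂ (riemannRochSpace N) := Module.finBasis ℂ _
  have hI₁ := isClosed_incidence hRS hRR M₁ (d := g + a) (fun j => (B₁ j : F))
    (fun j => (B₁ j).2)
  have hI₂ := isClosed_incidence hRS hRR N (d := g + b) (fun j => (B₂ j : F))
    (fun j => (B₂ j).2)
  have : CompactSpace (Metric.sphere (0 : Fin n₁ → ℂ) 1) :=
    isCompact_iff_compactSpace.mp (isCompact_sphere 0 1)
  have : CompactSpace (Metric.sphere (0 : Fin n₂ → ℂ) 1) :=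
    isCompact_iff_compactSpace.mp (isCompact_sphere 0 1)
  -- the closed set upstairs
  let W : Set (((Fin a → Place ℂ F) × (Fin b → Place ℂ F)) ×
      ((Fin g → Place ℂ F) × (Metric.sphere (0 : Fin n₁ → ℂ) 1 ×
        Metric.sphere (0 : Fin n₂ → ℂ) 1))) :=
    {q | ((Fin.append q.2.1 q.1.1, (q.2.2.1 : Fin n₁ → ℂ)) ∈
        {p : (Fin (g + a) → Place ℂ F) × (Fin n₁ → ℂ) |
          (∑ j, p.2 j • (B₁ j : F) = 0) ∨
            ∀ Q : Place ℂ F, tupleDiv p.1 Q ≤ Q.ord (∑ j, p.2 j • (B₁ j : F)) + M₁ Q}) ∧
      ((Fin.append q.2.1 q.1.2, (q.2.2.2 : Fin n₂ → ℂ)) ∈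
        {p : (Fin (g + b) → Place ℂ F) × (Fin n₂ → ℂ) |
          (∑ j, p.2 j • (B₂ j : F) = 0) ∨
            ∀ Q : Place ℂ F, tupleDiv p.1 Q ≤ Q.ord (∑ j, p.2 j • (B₂ j : F)) + N Q})}
  have hW : IsClosed W := by
    refine IsClosed.inter (hI₁.preimage ?_) (hI₂.preimage ?_)
    · exact (continuous_append (continuous_fst.comp continuous_snd)
        (continuous_fst.comp continuous_fst)).prodMk
        (continuous_subtype_val.comp (continuous_fst.comp (continuous_snd.comp continuous_snd)))
    · exact (continuous_append (continuous_fst.comp continuous_snd)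
        (continuous_snd.comp continuous_fst)).prodMk
        (continuous_subtype_val.comp (continuous_snd.comp (continuous_snd.comp continuous_snd)))
  -- nonvanishing on the spheres
  have hne₁ : ∀ c : Fin n₁ → ℂ, c ≠ 0 → ∑ j, c j • (B₁ j : F) ≠ 0 := by
    intro c hc h
    rw [sum_smul_basis_coe] at h
    have h' : B₁.equivFun.symm c = 0 := Subtype.ext h
    exact hc ((LinearEquiv.map_eq_zero_iff _).mp h')
  have hne₂ : ∀ c : Fin n₂ → ℂ, c ≠ 0 → ∑ j, c j • (B₂ j : F) ≠ 0 := by
    intro c hc h
    rw [sum_smul_basis_coe] at h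
    have h' : B₂.equivFun.symm c = 0 := Subtype.ext h
    exact hc ((LinearEquiv.map_eq_zero_iff _).mp h')
  have hsph : ∀ {n : ℕ} (c : Metric.sphere (0 : Fin n → ℂ) 1), (c : Fin n → ℂ) ≠ 0 := by
    intro n c h
    have h1 : ‖(c : Fin n → ℂ)‖ = 1 := mem_sphere_zero_iff_norm.mp c.2
    rw [h, norm_zero] at h1
    exact zero_ne_one h1
  -- normalisation of coordinates
  have hnorm : ∀ {n : ℕ} (c₀ : Fin n → ℂ), c₀ ≠ 0 →
      (((‖c₀‖⁻¹ : ℝ) : ℂ) • c₀) ∈ Metric.sphere (0 : Fin n → ℂ) 1 := by
    intro n c₀ hc₀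
    have hpos : 0 < ‖c₀‖ := norm_pos_iff.mpr hc₀
    rw [mem_sphere_zero_iff_norm, norm_smul, Complex.norm_real, norm_inv, norm_norm,
      inv_mul_cancel₀ hpos.ne']
  have himage : {p : (Fin a → Place ℂ F) × (Fin b → Place ℂ F) |
      tupleDiv p.1 + C - tupleDiv p.2 ∈ Divisor.principal (K := ℂ) (F := F)} =
      Prod.fst '' W := by
    ext ⟨P, Q⟩
    constructor
    · rintro ⟨f, hf, hD⟩
      have hD' : ∀ v : Place ℂ F, tupleDiv P v + C v - tupleDiv Q v = v.ord f := by
        intro v
        have := hD v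
        simpa using this
      -- a nonzero section of `L(N - ∑ Q)`
      have hell : 0 < ell (N - tupleDiv Q) := by
        have h := hRR.riemann (N - tupleDiv Q)
        rw [map_sub, hN, degree_tupleDiv hdeg1] at h
        have : (1 : ℤ) ≤ (ell (N - tupleDiv Q) : ℤ) := by
          push_cast at h
          linarith
        exact_mod_cast this
      have := hRR.finite (N - tupleDiv Q)
      obtain ⟨s', hs'0⟩ := (Module.finrank_pos_iff_exists_ne_zero
        (R := ℂ) (M := riemannRochSpace (N - tupleDiv Q))).mp hell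
      have hs'F : (s' : F) ≠ 0 := fun h => hs'0 (Subtype.ext h)
      have hs'mem : ∀ v : Place ℂ F, -(N v - tupleDiv Q v) ≤ v.ord (s' : F) := by
        intro v
        have := (mem_riemannRochSpace_iff.mp s'.2 v).resolve_left hs'F
        simpa using this
      obtain ⟨D', hD'1, hD'2⟩ := hRR.principal.exists_divisor (s' : F) hs'F
      -- the residual divisor `T`
      have hE : ∀ v : Place ℂ F, 0 ≤ (D' + N - tupleDiv Q) v := by
        intro v
        have := hs'mem v
        simp only [Finsupp.sub_apply, Finsupp.add_apply, hD'1]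
        linarith
      have hEd : Divisor.degree (D' + N - tupleDiv Q) = (g : ℤ) := by
        rw [map_sub, map_add, hD'2, hN, degree_tupleDiv hdeg1]
        push_cast
        ring
      obtain ⟨T, hT⟩ := exists_tuple_of_nonneg hdeg1 g _ hE hEd
      have hTv : ∀ v : Place ℂ F, tupleDiv T v = v.ord (s' : F) + N v - tupleDiv Q v := by
        intro v
        rw [hT]
        simp [hD'1]
      have hTQ : ∀ v : Place ℂ F, 0 ≤ tupleDiv Q v := tupleDiv_apply_nonneg Q
      have hTT : ∀ v : Place ℂ F, 0 ≤ tupleDiv T v := by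
        intro v
        rw [hT]
        exact hE v
      have hTP : ∀ v : Place ℂ F, 0 ≤ tupleDiv P v := tupleDiv_apply_nonneg P
      -- `s' ∈ L(N)`
      have hs'N : (s' : F) ∈ riemannRochSpace N := by
        rw [mem_riemannRochSpace_iff]
        intro v
        right
        have := hTv v
        have := hTT v
        have := hTQ v
        linarith
      -- `s = f s' ∈ L(N - C)`
      have hsF : f * (s' : F) ≠ 0 := mul_ne_zero hf hs'F
      have hsord : ∀ v : Place ℂ F,
          v.ord (f * (s' : F)) + M₁ v = tupleDiv T v + tupleDiv P v := by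
        intro v
        rw [v.ord_mul hf hs'F, ← hD' v, hTv v, hM₁]
        simp only [Finsupp.sub_apply]
        ring
      have hsM : f * (s' : F) ∈ riemannRochSpace M₁ := by
        rw [mem_riemannRochSpace_iff]
        intro v
        right
        have := hsord v
        have := hTT v
        have := hTP v
        linarith
      -- coordinates
      set c₁ : Fin n₁ → ℂ := B₁.equivFun ⟨f * (s' : F), hsM⟩ with hc₁
      set c₂ : Fin n₂ → ℂ := B₂.equivFun ⟨(s' : F), hs'N⟩ with hc₂
      have hc₁0 : c₁ ≠ 0 := by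
        intro h
        have : (⟨f * (s' : F), hsM⟩ : riemannRochSpace M₁) = 0 := by
          have := congrArg B₁.equivFun.symm h
          simpa [hc₁] using this
        exact hsF (congrArg Subtype.val this)
      have hc₂0 : c₂ ≠ 0 := by
        intro h
        have : (⟨(s' : F), hs'N⟩ : riemannRochSpace N) = 0 := by
          have := congrArg B₂.equivFun.symm h
          simpa [hc₂] using this
        exact hs'F (congrArg Subtype.val this)
      have hr₁ : ((‖c₁‖⁻¹ : ℝ) : ℂ) ≠ 0 := by
        have : 0 < ‖c₁‖ := norm_pos_iff.mpr hc₁0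
        exact_mod_cast (inv_pos.mpr this).ne'
      have hr₂ : ((‖c₂‖⁻¹ : ℝ) : ℂ) ≠ 0 := by
        have : 0 < ‖c₂‖ := norm_pos_iff.mpr hc₂0
        exact_mod_cast (inv_pos.mpr this).ne'
      have hs₁ : ∑ j, (((‖c₁‖⁻¹ : ℝ) : ℂ) • c₁) j • (B₁ j : F) =
          ((‖c₁‖⁻¹ : ℝ) : ℂ) • (f * (s' : F)) := by
        rw [sum_smul_basis_coe, map_smul, hc₁, LinearEquiv.symm_apply_apply]
        rfl
      have hs₂ : ∑ j, (((‖c₂‖⁻¹ : ℝ) : ℂ) • c₂) j • (B₂ j : F) =
          ((‖c₂‖⁻¹ : ℝ) : ℂ) • (s' : F) := by
        rw [sum_smul_basis_coe, map_smul, hc₂, LinearEquiv.symm_apply_apply]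
        rfl
      refine ⟨((P, Q), (T, (⟨_, hnorm c₁ hc₁0⟩, ⟨_, hnorm c₂ hc₂0⟩))), ⟨?_, ?_⟩, rfl⟩
      · right
        intro v
        show tupleDiv (Fin.append T P) v ≤ v.ord (∑ j, (((‖c₁‖⁻¹ : ℝ) : ℂ) • c₁) j • (B₁ j : F))
          + M₁ v
        rw [hs₁, ord_smul_of_ne_zero v hr₁, hsord v, tupleDiv_append, Finsupp.add_apply]
      · right
        intro v
        show tupleDiv (Fin.append T Q) v ≤ v.ord (∑ j, (((‖c₂‖⁻¹ : ℝ) : ℂ) • c₂) j • (B₂ j : F))
          + N v
        rw [hs₂, ord_smul_of_ne_zero v hr₂, tupleDiv_append, Finsupp.add_apply, hTv v]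
        linarith
    · rintro ⟨⟨⟨P', Q'⟩, T, c, c'⟩, ⟨h1, h2⟩, hpq⟩
      obtain ⟨rfl, rfl⟩ : P' = P ∧ Q' = Q := by
        simpa [Prod.ext_iff] using hpq
      set s : F := ∑ j, (c : Fin n₁ → ℂ) j • (B₁ j : F) with hs
      set s' : F := ∑ j, (c' : Fin n₂ → ℂ) j • (B₂ j : F) with hs'
      have hs0 : s ≠ 0 := hne₁ _ (hsph c)
      have hs'0 : s' ≠ 0 := hne₂ _ (hsph c')
      have h1' : ∀ v : Place ℂ F, tupleDiv T v + tupleDiv P' v ≤ v.ord s + M₁ v := by
        intro v
        have := (h1.resolve_left hs0) v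
        rwa [tupleDiv_append, Finsupp.add_apply] at this
      have h2' : ∀ v : Place ℂ F, tupleDiv T v + tupleDiv Q' v ≤ v.ord s' + N v := by
        intro v
        have := (h2.resolve_left hs'0) v
        rwa [tupleDiv_append, Finsupp.add_apply] at this
      obtain ⟨D, hD1, hD2⟩ := hRR.principal.exists_divisor s hs0
      obtain ⟨D', hD'1, hD'2⟩ := hRR.principal.exists_divisor s' hs'0
      -- equalities by the degree count
      have hE1 : D + M₁ - (tupleDiv T + tupleDiv P') = 0 := by
        refine eq_zero_of_nonneg_of_degree_eq_zero hdeg1 (fun v => ?_) ?_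
        · have := h1' v
          simp only [Finsupp.sub_apply, Finsupp.add_apply, hD1]
          linarith
        · rw [map_sub, map_add, map_add, hD2, hM₁, map_sub, hN, degree_tupleDiv hdeg1,
            degree_tupleDiv hdeg1]
          push_cast
          linarith
      have hE2 : D' + N - (tupleDiv T + tupleDiv Q') = 0 := by
        refine eq_zero_of_nonneg_of_degree_eq_zero hdeg1 (fun v => ?_) ?_
        · have := h2' v
          simp only [Finsupp.sub_apply, Finsupp.add_apply, hD'1]
          linarith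
        · rw [map_sub, map_add, map_add, hD'2, hN, degree_tupleDiv hdeg1,
            degree_tupleDiv hdeg1]
          push_cast
          ring
      refine ⟨s / s', div_ne_zero hs0 hs'0, fun v => ?_⟩
      have e1 := DFunLike.congr_fun hE1 v
      have e2 := DFunLike.congr_fun hE2 v
      simp only [Finsupp.sub_apply, Finsupp.add_apply, hD1, hD'1, Finsupp.coe_zero,
        Pi.zero_apply, hM₁] at e1 e2
      rw [div_eq_mul_inv, v.ord_mul hs0 (inv_ne_zero hs'0), v.ord_inv]
      simp only [Finsupp.sub_apply, Finsupp.add_apply]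
      linarith
  rw [himage]
  exact isClosedMap_fst_of_compactSpace _ hW

end Fermat.Agent.S27.Spine
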