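/-
S27 SPINE leaf C3: `Pic0 ℂ F` with the quotient topology from `X^g` is a compact Hausdorff
connected topological group.  FROZEN statements.
-/
import Fermat.Agent.S27.Spine.C2
import Fermat.Agent.S27.QuotGroup

set_option autoImplicit false

open AlgebraicCurve

namespace Fermat.Agent.S27.Spine

variable {F : Type*} [Field F] [Algebra ℂ F]

namespace C3aux

/-- degree of a tuple divisor when all places have degree one -/
theorem degree_tupleDiv (hRR : RRFacts ℂ F) {d : ℕ} (P : Fin d → Place ℂ F) :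
    Divisor.degree (tupleDiv P) = d := by
  rw [tupleDiv, map_sum]
  simp [Divisor.degree_single, hRR.deg_one]

theorem degree_smul_single (hRR : RRFacts ℂ F) (P₀ : Place ℂ F) (g : ℕ) :
    Divisor.degree (g • Finsupp.single P₀ (1 : ℤ)) = g := by
  rw [map_nsmul, Divisor.degree_single, hRR.deg_one]
  simp

theorem mem_degZero (hRR : RRFacts ℂ F) (P₀ : Place ℂ F) {g : ℕ} (P : Fin g → Place ℂ F) :
    tupleDiv P - g • Finsupp.single P₀ (1 : ℤ) ∈ Divisor.degZero (K := ℂ) (F := F) := by
  rw [Divisor.mem_degZero, map_sub, degree_tupleDiv hRR, degree_smul_single hRR, sub_self]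

theorem tupleDiv_cons {d : ℕ} (v : Place ℂ F) (P : Fin d → Place ℂ F) :
    tupleDiv (Fin.cons v P : Fin (d + 1) → Place ℂ F) = Finsupp.single v 1 + tupleDiv P := by
  simp [tupleDiv, Fin.sum_univ_succ]

theorem tupleDiv_append {a b : ℕ} (P : Fin a → Place ℂ F) (Q : Fin b → Place ℂ F) :
    tupleDiv (Fin.append P Q) = tupleDiv P + tupleDiv Q := by
  simp [tupleDiv, Fin.sum_univ_add]

/-- an effective divisor of degree `d` is the divisor of a `d`-tuple -/
theorem exists_tupleDiv_eq (hRR : RRFacts ℂ F) (d : ℕ) :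
    ∀ E : Divisor ℂ F, (∀ v, 0 ≤ E v) → Divisor.degree E = d →
      ∃ P : Fin d → Place ℂ F, tupleDiv P = E := by
  induction d with
  | zero =>
    intro E hE hdeg
    refine ⟨fun i => i.elim0, ?_⟩
    have hsum : Divisor.degree E = E.sum fun v n => n * (v.deg : ℤ) := by
      simp [Divisor.degree, Finsupp.liftAddHom_apply]
    have h0 : E = 0 := by
      rw [← Finsupp.support_eq_empty]
      by_contra hne
      obtain ⟨v, hv⟩ := Finset.nonempty_iff_ne_empty.mpr hne
      have hz : ∀ w ∈ E.support, E w * (w.deg : ℤ) = 0 := by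
        have hnn : ∀ w ∈ E.support, 0 ≤ E w * (w.deg : ℤ) := fun w _ =>
          mul_nonneg (hE w) (by positivity)
        have := (Finset.sum_eq_zero_iff_of_nonneg hnn).mp (by
          rw [hsum, Finsupp.sum] at hdeg
          simpa using hdeg)
        exact this
      have := hz v hv
      rw [hRR.deg_one, Nat.cast_one, mul_one] at this
      exact (Finsupp.mem_support_iff.mp hv) this
    rw [h0]
    simp [tupleDiv]
  | succ d ih =>
    intro E hE hdeg
    have hne : E ≠ 0 := by
      rintro rfl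
      rw [map_zero] at hdeg
      have : (0 : ℤ) = ((d + 1 : ℕ) : ℤ) := hdeg
      omega
    obtain ⟨v, hv⟩ : ∃ v, E v ≠ 0 := by
      by_contra hcon
      simp only [not_exists, not_not] at hcon
      exact hne (Finsupp.ext hcon)
    have hv1 : 1 ≤ E v := by
      have := hE v
      omega
    obtain ⟨P, hP⟩ := ih (E - Finsupp.single v 1) (fun w => by
      rw [Finsupp.sub_apply]
      by_cases hw : w = v
      · subst hw
        simp only [Finsupp.single_eq_same]
        omega
      · rw [Finsupp.single_eq_of_ne hw]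
        simpa using hE w) (by
      rw [map_sub, hdeg, Divisor.degree_single, hRR.deg_one]
      push_cast
      ring)
    refine ⟨Fin.cons v P, ?_⟩
    rw [tupleDiv_cons, hP]
    abel

end C3aux

/-- `picMap` is what it should be when all places have degree one. -/
theorem picMap_eq (hRR : RRFacts ℂ F) (P₀ : Place ℂ F) {g : ℕ} (P : Fin g → Place ℂ F) :
    ∃ h : tupleDiv P - g • Finsupp.single P₀ (1 : ℤ) ∈ Divisor.degZero (K := ℂ) (F := F),
      picMap P₀ P = Pic0.mk ⟨_, h⟩ := by
  refine ⟨C3aux.mem_degZero hRR P₀ P, ?_⟩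
  rw [picMap, dif_pos (C3aux.mem_degZero hRR P₀ P)]

/-- `picMap P₀ P = picMap P₀ Q` iff `∑ [P_i] ∼ ∑ [Q_i]`. -/
theorem picMap_eq_iff (hRR : RRFacts ℂ F) (P₀ : Place ℂ F) {g : ℕ} (P Q : Fin g → Place ℂ F) :
    picMap P₀ P = picMap P₀ Q ↔
      tupleDiv P - tupleDiv Q ∈ Divisor.principal (K := ℂ) (F := F) := by
  obtain ⟨hP, eP⟩ := picMap_eq hRR P₀ P
  obtain ⟨hQ, eQ⟩ := picMap_eq hRR P₀ Q
  rw [eP, eQ, Pic0.mk, Pic0.mk, QuotientAddGroup.eq, AddSubgroup.mem_addSubgroupOf]
  have : ((-(⟨_, hP⟩ : Divisor.degZero (K := ℂ) (F := F)) + ⟨_, hQ⟩ :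
      Divisor.degZero (K := ℂ) (F := F)) : Divisor ℂ F) = -(tupleDiv P - tupleDiv Q) := by
    push_cast
    abel
  rw [this, neg_mem_iff]

/-- **C3a.** Every class of degree `0` is `[∑ P_i - g P₀]` for some `P ∈ X^g` (Riemann). -/
theorem picMap_surjective (hRR : RRFacts ℂ F) (P₀ : Place ℂ F) :
    Function.Surjective (picMap P₀ (g := genusFF ℂ F)) := by
  intro x
  obtain ⟨D₀, rfl⟩ := Pic0.mk_surjective x
  set g := genusFF ℂ F with hg
  set D : Divisor ℂ F := (D₀ : Divisor ℂ F) + g • Finsupp.single P₀ (1 : ℤ) with hD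
  have hdegD : Divisor.degree D = g := by
    rw [hD, map_add, C3aux.degree_smul_single hRR, Divisor.mem_degZero.mp D₀.2, zero_add]
  have hell : 1 ≤ ell D := by
    have := hRR.riemann D
    rw [hdegD] at this
    omega
  obtain ⟨f, hfD, hf0⟩ : ∃ f : F, f ∈ riemannRochSpace D ∧ f ≠ 0 := by
    by_contra hcon
    simp only [not_exists, not_and, not_not] at hcon
    have hsub : Subsingleton (riemannRochSpace D) :=
      ⟨fun a b => Subtype.ext ((hcon a a.2).trans (hcon b b.2).symm)⟩
    have : ell D = 0 := by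
      rw [ell]
      exact Module.finrank_zero_of_subsingleton
    omega
  obtain ⟨Df, hDf, hDfdeg⟩ := hRR.principal.exists_divisor f hf0
  have hDfprin : Df ∈ Divisor.principal (K := ℂ) (F := F) := ⟨f, hf0, hDf⟩
  obtain ⟨P, hP⟩ := C3aux.exists_tupleDiv_eq hRR g (Df + D) (fun v => by
    have := (mem_riemannRochSpace_iff.mp hfD v).resolve_left hf0
    rw [Finsupp.add_apply, hDf v]
    omega) (by rw [map_add, hDfdeg, hdegD, zero_add])
  refine ⟨P, ?_⟩
  obtain ⟨h, e⟩ := picMap_eq hRR P₀ P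
  rw [e, Pic0.mk, Pic0.mk, QuotientAddGroup.eq, AddSubgroup.mem_addSubgroupOf]
  have : ((-(⟨_, h⟩ : Divisor.degZero (K := ℂ) (F := F)) + D₀ :
      Divisor.degZero (K := ℂ) (F := F)) : Divisor ℂ F) = -Df := by
    push_cast
    rw [hP, hD]
    abel
  rw [this, neg_mem_iff]
  exact hDfprin

variable [TopologicalSpace (Place ℂ F)]

/-- **C3b.** `Pic0 ℂ F` with the quotient topology is a compact Hausdorff connected topological
group. -/
theorem pic_topGroup (hRS : IsRS F) (hRR : RRFacts ℂ F) (P₀ : Place ℂ F) :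
    letI := picTop (F := F) P₀
    IsTopologicalAddGroup (Pic0 ℂ F) ∧ CompactSpace (Pic0 ℂ F) ∧ T2Space (Pic0 ℂ F) ∧
      ConnectedSpace (Pic0 ℂ F) := by
  have := hRS.compact
  have := hRS.t2
  have := hRS.connected
  set g := genusFF ℂ F with hg
  have hπ : Function.Surjective (picMap P₀ (g := g)) := picMap_surjective hRR P₀
  have hΦ : Continuous (fun y : (Fin g → Place ℂ F) × (Fin g → Place ℂ F) × (Fin g → Place ℂ F) =>
      ((Fin.append y.1 y.2.1, y.2.2) : (Fin (g + g) → Place ℂ F) × (Fin g → Place ℂ F))) := by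
    refine Continuous.prodMk (continuous_pi fun i => ?_) (by fun_prop)
    refine Fin.addCases (fun i' => ?_) (fun j => ?_) i
    · simp only [Fin.append_left]
      fun_prop
    · simp only [Fin.append_right]
      fun_prop
  have hR : IsClosed {y : (Fin g → Place ℂ F) × (Fin g → Place ℂ F) × (Fin g → Place ℂ F) |
      picMap P₀ y.1 + picMap P₀ y.2.1 = picMap P₀ y.2.2} := by
    have hcl := (isClosed_linEquiv hRS hRR (g + g) g
      (-(g • Finsupp.single P₀ (1 : ℤ)))).preimage hΦ
    convert hcl using 1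
    ext y
    obtain ⟨P, Q, R⟩ := y
    simp only [Set.mem_ofPred_eq, Set.mem_preimage]
    obtain ⟨hP, eP⟩ := picMap_eq hRR P₀ P
    obtain ⟨hQ, eQ⟩ := picMap_eq hRR P₀ Q
    obtain ⟨hR, eR⟩ := picMap_eq hRR P₀ R
    rw [eP, eQ, eR, ← Pic0.mk_add, Pic0.mk, Pic0.mk, QuotientAddGroup.eq,
      AddSubgroup.mem_addSubgroupOf, C3aux.tupleDiv_append]
    have : ((-((⟨_, hP⟩ : Divisor.degZero (K := ℂ) (F := F)) + ⟨_, hQ⟩) + ⟨_, hR⟩ :
        Divisor.degZero (K := ℂ) (F := F)) : Divisor ℂ F) =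
        -(tupleDiv P + tupleDiv Q + -(g • Finsupp.single P₀ (1 : ℤ)) - tupleDiv R) := by
      push_cast
      abel
    rw [this, neg_mem_iff]
  obtain ⟨h1, h2, h3, -, -⟩ := QG.topGroup_of_isClosed_rel (picMap P₀ (g := g)) hπ hR
  exact ⟨h1, h2, h3, QG.connectedSpace_coinduced (picMap P₀ (g := g)) hπ⟩

end Fermat.Agent.S27.Spine
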