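/-
S27 SPINE leaf C4: non-speciality is an open condition on `X^g`.  FROZEN statement.
-/
import Fermat.Agent.S27.Spine.C2

set_option autoImplicit false

open AlgebraicCurve

namespace Fermat.Agent.S27.Spine

variable {F : Type*} [Field F] [Algebra ℂ F]

namespace C4aux

/-- degree of a tuple divisor when all places have degree one -/
theorem degree_tupleDiv (hRR : RRFacts ℂ F) {d : ℕ} (P : Fin d → Place ℂ F) :
    Divisor.degree (tupleDiv P) = d := by
  rw [tupleDiv, map_sum]
  simp [Divisor.degree_single, hRR.deg_one]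

theorem tupleDiv_cons {d : ℕ} (v : Place ℂ F) (P : Fin d → Place ℂ F) :
    tupleDiv (Fin.cons v P : Fin (d + 1) → Place ℂ F) = Finsupp.single v 1 + tupleDiv P := by
  simp [tupleDiv, Fin.sum_univ_succ]

theorem tupleDiv_nonneg {d : ℕ} (P : Fin d → Place ℂ F) (v : Place ℂ F) : 0 ≤ tupleDiv P v := by
  rw [tupleDiv, Finsupp.finsetSum_apply]
  refine Finset.sum_nonneg fun i _ => ?_
  by_cases h : P i = v
  · rw [h, Finsupp.single_eq_same]; exact zero_le_one
  · rw [Finsupp.single_eq_of_ne (fun h' => h h'.symm)]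

/-- an effective divisor of degree `d` is the divisor of a `d`-tuple -/
theorem exists_tupleDiv_eq (hRR : RRFacts ℂ F) (d : ℕ) :
    ∀ E : Divisor ℂ F, (∀ v, 0 ≤ E v) → Divisor.degree E = d →
      ∃ P : Fin d → Place ℂ F, tupleDiv P = E := by
  induction d with
  | zero =>
    intro E hE hdeg
    refine ⟨fun i => i.elim0, ?_⟩
    have hsum : Divisor.degree E = E.sum fun v n => n * (v.deg : ℤ) := by
      simp [Divisor.degree, Finsupp.liftAddHom_apply]
    have h0 : E = 0 := by
      rw [← Finsupp.support_eq_empty]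
      by_contra hne
      obtain ⟨v, hv⟩ := Finset.nonempty_iff_ne_empty.mpr hne
      have hz : ∀ w ∈ E.support, E w * (w.deg : ℤ) = 0 := by
        have hnn : ∀ w ∈ E.support, 0 ≤ E w * (w.deg : ℤ) := fun w _ =>
          mul_nonneg (hE w) (by positivity)
        have := (Finset.sum_eq_zero_iff_of_nonneg hnn).mp (by
          rw [hsum, Finsupp.sum] at hdeg
          simpa using hdeg)
        exact this
      have := hz v hv
      rw [hRR.deg_one, Nat.cast_one, mul_one] at this
      exact (Finsupp.mem_support_iff.mp hv) this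
    rw [h0]
    simp [tupleDiv]
  | succ d ih =>
    intro E hE hdeg
    have hne : E ≠ 0 := by
      rintro rfl
      rw [map_zero] at hdeg
      have : (0 : ℤ) = ((d + 1 : ℕ) : ℤ) := hdeg
      omega
    obtain ⟨v, hv⟩ : ∃ v, E v ≠ 0 := by
      by_contra hcon
      simp only [not_exists, not_not] at hcon
      exact hne (Finsupp.ext hcon)
    have hv1 : 1 ≤ E v := by
      have := hE v
      omega
    obtain ⟨P, hP⟩ := ih (E - Finsupp.single v 1) (fun w => by
      rw [Finsupp.sub_apply]
      by_cases hw : w = v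
      · subst hw
        simp only [Finsupp.single_eq_same]
        omega
      · rw [Finsupp.single_eq_of_ne hw]
        simpa using hE w) (by
      rw [map_sub, hdeg, Divisor.degree_single, hRR.deg_one]
      push_cast
      ring)
    refine ⟨Fin.cons v P, ?_⟩
    rw [tupleDiv_cons, hP]
    abel

/-- nonzero constants have order zero -/
theorem ord_algebraMap (v : Place ℂ F) {c : ℂ} (hc : c ≠ 0) : v.ord (algebraMap ℂ F c) = 0 := by
  have hc' : algebraMap ℂ F c ≠ 0 := (map_ne_zero (algebraMap ℂ F)).mpr hc
  have hc'' : algebraMap ℂ F c⁻¹ ≠ 0 := (map_ne_zero (algebraMap ℂ F)).mpr (inv_ne_zero hc)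
  have h1 := (v.adicValuation_le_one_iff).mp (v.adicValuation_algebraMap_le_one c)
  have h2 := (v.adicValuation_le_one_iff).mp (v.adicValuation_algebraMap_le_one c⁻¹)
  have h1' := h1.resolve_left hc'
  have h2' := h2.resolve_left hc''
  rw [map_inv₀, Place.ord_inv] at h2'
  omega

/-- a nonzero element of `L(D)` exists when `l(D) ≥ 1` -/
theorem exists_ne_zero_mem (D : Divisor ℂ F) (h : 1 ≤ ell D) :
    ∃ f : F, f ∈ riemannRochSpace D ∧ f ≠ 0 := by
  by_contra hcon
  simp only [not_exists, not_and, not_not] at hcon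
  have hsub : Subsingleton (riemannRochSpace D) :=
    ⟨fun a b => Subtype.ext ((hcon a a.2).trans (hcon b b.2).symm)⟩
  have : ell D = 0 := by
    rw [ell]
    exact Module.finrank_zero_of_subsingleton
  omega

/-- the pencil characterisation of `l(∑ P) ≠ 1`, `g = d + 1`. -/
theorem ell_ne_one_iff (hRR : RRFacts ℂ F) {d : ℕ} (hd : genusFF ℂ F = d + 1)
    (P : Fin (d + 1) → Place ℂ F) :
    ell (tupleDiv P) ≠ 1 ↔ ∀ Q : Place ℂ F, ∃ P' : Fin d → Place ℂ F,
      tupleDiv P + -Finsupp.single Q (1 : ℤ) - tupleDiv P' ∈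
        Divisor.principal (K := ℂ) (F := F) := by
  have hdeg : Divisor.degree (tupleDiv P) = ((d + 1 : ℕ) : ℤ) := degree_tupleDiv hRR P
  have hge : 1 ≤ ell (tupleDiv P) := by
    have := hRR.riemann (tupleDiv P)
    rw [hdeg, hd] at this
    omega
  constructor
  · intro hne Q
    have h2 : 2 ≤ ell (tupleDiv P) := by omega
    have h3 := hRR.add_single_le (tupleDiv P - Finsupp.single Q 1) Q
    rw [sub_add_cancel] at h3
    obtain ⟨f, hfD, hf0⟩ := exists_ne_zero_mem (tupleDiv P - Finsupp.single Q 1) (by omega)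
    obtain ⟨Df, hDf, hDfdeg⟩ := hRR.principal.exists_divisor f hf0
    have hDfprin : Df ∈ Divisor.principal (K := ℂ) (F := F) := ⟨f, hf0, hDf⟩
    obtain ⟨P', hP'⟩ := exists_tupleDiv_eq hRR d (Df + (tupleDiv P - Finsupp.single Q 1))
      (fun v => by
        have := (mem_riemannRochSpace_iff.mp hfD v).resolve_left hf0
        rw [Finsupp.add_apply, hDf v]
        omega) (by
        rw [map_add, map_sub, hDfdeg, hdeg, Divisor.degree_single, hRR.deg_one]
        push_cast
        ring)
    refine ⟨P', ?_⟩
    have : tupleDiv P + -Finsupp.single Q (1 : ℤ) - tupleDiv P' = -Df := by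
      rw [hP']; abel
    rw [this, neg_mem_iff]
    exact hDfprin
  · intro hall hone
    -- a place outside the support
    have := hRR.infinite
    obtain ⟨Q, hQ⟩ := Infinite.exists_notMem_finset (tupleDiv P).support
    have hQ0 : tupleDiv P Q = 0 := by
      simpa [Finsupp.mem_support_iff] using hQ
    obtain ⟨P', h, hh0, hh⟩ := hall Q
    -- `h⁻¹ ∈ L(∑ P)`
    have hmem : h⁻¹ ∈ riemannRochSpace (tupleDiv P) := by
      rw [mem_riemannRochSpace_iff]
      intro v
      right
      rw [Place.ord_inv, ← hh v]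
      simp only [Finsupp.sub_apply, Finsupp.add_apply, Finsupp.neg_apply]
      have h1 := tupleDiv_nonneg P' v
      have h2 : 0 ≤ Finsupp.single Q (1 : ℤ) v := by
        by_cases hv : Q = v
        · rw [hv, Finsupp.single_eq_same]; exact zero_le_one
        · rw [Finsupp.single_eq_of_ne (fun h' => hv h'.symm)]
      omega
    have hone_mem : (1 : F) ∈ riemannRochSpace (tupleDiv P) := by
      rw [mem_riemannRochSpace_iff]
      intro v
      right
      rw [Place.ord_one]
      have := tupleDiv_nonneg P v
      omega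
    -- `L(∑ P)` is one-dimensional, spanned by `1`
    have hfin := hRR.finite (tupleDiv P)
    have hspan := (finrank_eq_one_iff_of_nonzero' (⟨1, hone_mem⟩ : riemannRochSpace (tupleDiv P))
      (by
        intro h0
        have := congrArg Subtype.val h0
        simp at this)).mp hone
    obtain ⟨c, hc⟩ := hspan ⟨h⁻¹, hmem⟩
    have hc' : algebraMap ℂ F c = h⁻¹ := by
      have := congrArg Subtype.val hc
      simpa [Algebra.smul_def] using this
    have hc0 : c ≠ 0 := by
      rintro rfl
      rw [map_zero] at hc'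
      exact inv_ne_zero hh0 hc'.symm
    have hord : Q.ord h = 0 := by
      have := ord_algebraMap Q hc0
      rw [hc', Place.ord_inv] at this
      omega
    have := hh Q
    rw [hord] at this
    simp only [Finsupp.sub_apply, Finsupp.add_apply, Finsupp.neg_apply, Finsupp.single_eq_same,
      hQ0] at this
    have h1 := tupleDiv_nonneg P' Q
    omega

end C4aux

variable [TopologicalSpace (Place ℂ F)]

/-- **C4.** `{P ∈ X^g : l(∑ P_i) = 1}` is open (`g = genusFF ℂ F`). -/
theorem isOpen_nonspecial (hRS : IsRS F) (hRR : RRFacts ℂ F) :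
    IsOpen {P : Fin (genusFF ℂ F) → Place ℂ F | ell (tupleDiv P) = 1} := by
  have := hRS.compact
  rcases Nat.eq_zero_or_pos (genusFF ℂ F) with h0 | hpos
  · -- `g = 0`: the space is a point
    have hsub : Subsingleton (Fin (genusFF ℂ F) → Place ℂ F) := by
      rw [h0]; infer_instance
    exact isOpen_discrete _
  · obtain ⟨d, hd⟩ := Nat.exists_eq_succ_of_ne_zero hpos.ne'
    rw [← isClosed_compl_iff]
    suffices h : ∀ g : ℕ, g = d + 1 → genusFF ℂ F = g →
        IsClosed {P : Fin g → Place ℂ F | ell (tupleDiv P) = 1}ᶜ from h _ hd rfl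
    intro g hg hgen
    subst hg
    have hset : {P : Fin (d + 1) → Place ℂ F | ell (tupleDiv P) = 1}ᶜ =
        ⋂ Q : Place ℂ F, Prod.fst '' {p : (Fin (d + 1) → Place ℂ F) × (Fin d → Place ℂ F) |
          tupleDiv p.1 + -Finsupp.single Q (1 : ℤ) - tupleDiv p.2 ∈
            Divisor.principal (K := ℂ) (F := F)} := by
      ext P
      simp only [Set.mem_compl_iff, Set.mem_ofPred_eq, Set.mem_iInter, Set.mem_image, Prod.exists,
        exists_and_right, exists_eq_right]
      exact C4aux.ell_ne_one_iff hRR hgen P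
    rw [hset]
    refine isClosed_iInter fun Q => ?_
    exact isClosedMap_fst_of_compactSpace _
      (isClosed_linEquiv hRS hRR (d + 1) d (-Finsupp.single Q (1 : ℤ)))

end Fermat.Agent.S27.Spine
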