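/-
S27 SPINE leaf C5: the chart of `Pic0` at `0` attached to a non-special reduced divisor.
FROZEN statement (skeleton of helper9686).  Proof by helper1106, from the leaves C3
(`picMap_eq_iff`, `picMap_surjective`, `pic_topGroup`) and C4 (`isOpen_nonspecial`) and the
skeleton-independent core `Fermat.Agent.S27.C5Core1106`.
-/
import Fermat.Agent.S27.Spine.C3
import Fermat.Agent.S27.Spine.C4
import Fermat.Agent.S27.C5Core1106

set_option autoImplicit false

open AlgebraicCurve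

namespace Fermat.Agent.S27.Spine

variable {F : Type*} [Field F] [Algebra ℂ F] [TopologicalSpace (Place ℂ F)]

/-- **C5.** Let `P` be a non-special reduced tuple (`P` injective, `l(∑ P_i) = 1`) and `κ i` charts
of `X` at the `P i`.  Then `picChart P₀ P κ : ℂ^g → Pic0` is, on a small polydisc, an open
embedding. -/
theorem pic_chart (hRS : IsRS F) (hRR : RRFacts ℂ F) (P₀ : Place ℂ F)
    (P : Fin (genusFF ℂ F) → Place ℂ F) (hP : Function.Injective P) (hl : ell (tupleDiv P) = 1)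
    (κ : Fin (genusFF ℂ F) → ℂ → Place ℂ F) (ε : Fin (genusFF ℂ F) → ℝ)
    (t : Fin (genusFF ℂ F) → F) (hκ : ∀ i, IsChart (κ i) (ε i) (t i)) (h0 : ∀ i, κ i 0 = P i) :
    letI := picTop (F := F) P₀
    ∃ ρ : ℝ, 0 < ρ ∧ (∀ i, ρ ≤ ε i) ∧
      Set.InjOn (picChart P₀ P κ) (Metric.ball 0 ρ) ∧
      ContinuousOn (picChart P₀ P κ) (Metric.ball 0 ρ) ∧
      ∀ U : Set (Fin (genusFF ℂ F) → ℂ), U ⊆ Metric.ball 0 ρ → IsOpen U →
        IsOpen (picChart P₀ P κ '' U) := by
  let _ := picTop (F := F) P₀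
  obtain ⟨hG, -, -, -⟩ := pic_topGroup hRS hRR P₀
  have := hG
  have := hRS.t2
  have hq : Topology.IsQuotientMap (picMap P₀ (g := genusFF ℂ F)) :=
    ⟨⟨rfl⟩, picMap_surjective hRR P₀⟩
  have hπ : Topology.IsQuotientMap
      (fun Q : Fin (genusFF ℂ F) → Place ℂ F => picMap P₀ Q - picMap P₀ P) :=
    (Homeomorph.subRight (picMap P₀ P)).isQuotientMap.comp hq
  have hperm : ∀ (Q : Fin (genusFF ℂ F) → Place ℂ F) (σ : Equiv.Perm (Fin (genusFF ℂ F))),
      picMap P₀ (Q ∘ σ) - picMap P₀ P = picMap P₀ Q - picMap P₀ P := by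
    intro Q σ
    have h1 : picMap P₀ (Q ∘ σ) = picMap P₀ Q := by
      rw [picMap_eq_iff hRR P₀]
      have h2 : tupleDiv (Q ∘ σ) = tupleDiv Q := C5Core1106.sum_single_comp_perm Q σ
      rw [h2, sub_self]
      exact zero_mem _
    rw [h1]
  have hfib : ∀ R ∈ {R : Fin (genusFF ℂ F) → Place ℂ F | ell (tupleDiv R) = 1},
      Function.Injective R → ∀ Q : Fin (genusFF ℂ F) → Place ℂ F,
      picMap P₀ Q - picMap P₀ P = picMap P₀ R - picMap P₀ P →
      ∃ σ : Equiv.Perm (Fin (genusFF ℂ F)), Q = R ∘ σ := by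
    intro R hR hRinj Q hQR
    have h1 : picMap P₀ Q = picMap P₀ R := sub_left_injective hQR
    rw [picMap_eq_iff hRR P₀] at h1
    have h2 : tupleDiv Q = tupleDiv R :=
      C5Core1106.eq_of_sub_mem_principal (C5Core1106.sum_single_nonneg Q)
        (C5Core1106.sum_single_nonneg R) hR h1
    exact C5Core1106.exists_perm_of_sum_single_eq Q R hRinj h2
  exact C5Core1106.chart_core
    (fun Q : Fin (genusFF ℂ F) → Place ℂ F => picMap P₀ Q - picMap P₀ P) hπ hperm
    {R : Fin (genusFF ℂ F) → Place ℂ F | ell (tupleDiv R) = 1} (isOpen_nonspecial hRS hRR)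
    hfib P hP hl κ ε (fun i => (hκ i).pos) (fun i => (hκ i).injOn)
    (fun i => (hκ i).continuousOn) (fun i => (hκ i).isOpen_image) h0

end Fermat.Agent.S27.Spine
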