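/-
S27 SPINE leaf D, auxiliary file (helper5906): adapter from the spine interface
(`IsChart`, `RRFacts`, `picChart`) to the concrete chart-sum theorem
`DGlue5906.exists_chart_sum` (D1-D4) of package D.
-/
import Fermat.Agent.S27.Spine.C3
import Fermat.Agent.S27.DGlue5906.Main

set_option autoImplicit false

open AlgebraicCurve Topology Filter Fermat.Agent.S24.A564.SO

namespace Fermat.Agent.S27.Spine.DH5906

open Fermat.Agent.S27.DGlue5906

section Bridge

variable {K F : Type*} [Field K] [Field F] [Algebra K F]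

theorem hasValue_iff_isValue (Q : Place K F) (f : F) (c : K) :
    HasValue Q f c ↔ IsValue Q f c := by
  unfold HasValue IsValue
  rw [adicValuation_lt_one_iff, sub_eq_zero]

theorem value_eq_of_isValue {Q : Place K F} {f : F} {c : K} (h : IsValue Q f c) :
    value Q f = c := by
  have hex : ∃ c, HasValue Q f c := ⟨c, (hasValue_iff_isValue Q f c).mpr h⟩
  unfold value
  rw [dif_pos hex]
  exact ((hasValue_iff_isValue Q f _).mp hex.choose_spec).unique h

/-- `L(∑ P_i) = K` when `l(∑ P_i) = 1`. -/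
theorem const_of_ell_eq_one {g : ℕ} (P : Fin g → Place K F) (hl : ell (tupleDiv P) = 1) :
    ∀ s ∈ riemannRochSpace (tupleDiv P), ∃ c : K, s = algebraMap K F c := by
  intro s hs
  have h1 : (1 : F) ∈ riemannRochSpace (tupleDiv P) :=
    mem_riemannRochSpace_iff.mpr fun v => Or.inr (by
      rw [Place.ord_one]
      have := sum_single_nonneg P v
      unfold tupleDiv
      omega)
  have hne : (⟨1, h1⟩ : ↥(riemannRochSpace (tupleDiv P))) ≠ 0 :=
    fun h => one_ne_zero (α := F) (congrArg Subtype.val h)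
  obtain ⟨c, hc⟩ := (finrank_eq_one_iff_of_nonzero' _ hne).mp hl ⟨s, hs⟩
  refine ⟨c, ?_⟩
  have h2 := congrArg Subtype.val hc
  simp only [Submodule.coe_smul] at h2
  rw [← h2, Algebra.algebraMap_eq_smul_one]

end Bridge

section Germ

variable {F : Type*} [Field F] [Algebra ℂ F] [TopologicalSpace (Place ℂ F)]
variable {κ : ℂ → Place ℂ F} {ε : ℝ} {t : F}

theorem isValue_unif (h : IsChart κ ε t) {τ : ℂ} (hτ : τ ∈ Metric.ball (0 : ℂ) ε) :
    IsValue (κ τ) t τ :=
  (hasValue_iff_isValue _ _ _).mp (h.hasValue_unif τ hτ)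

theorem t_ne_const (h : IsChart κ ε t) (c : ℂ) : t ≠ algebraMap ℂ F c := by
  intro hc
  have hpos := h.pos
  have h0 : (0 : ℂ) ∈ Metric.ball (0 : ℂ) ε := Metric.mem_ball_self h.pos
  have h1 : ((ε / 2 : ℝ) : ℂ) ∈ Metric.ball (0 : ℂ) ε := by
    rw [mem_ball_zero_iff, Complex.norm_real, Real.norm_of_nonneg (by linarith)]
    linarith
  have hv : ∀ σ : ℂ, IsValue (κ σ) t c := fun σ => by rw [hc]; exact IsValue.const _ c
  have e0 : (0 : ℂ) = c := (isValue_unif h h0).unique (hv 0)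
  have e1 : ((ε / 2 : ℝ) : ℂ) = c := (isValue_unif h h1).unique (hv _)
  have e2 : ((ε / 2 : ℝ) : ℂ) = 0 := e1.trans e0.symm
  have e3 : ε / 2 = 0 := by exact_mod_cast e2
  linarith

theorem ord_unif (h : IsChart κ ε t) {τ : ℂ} (hτ : τ ∈ Metric.ball (0 : ℂ) ε) :
    (κ τ).ord (t - algebraMap ℂ F τ) = 1 := by
  set f : F := t - algebraMap ℂ F τ with hf
  have hfne : f ≠ 0 := fun h0 => t_ne_const h τ (sub_eq_zero.mp h0)
  have hval : ∀ σ ∈ Metric.ball (0 : ℂ) ε, IsValue (κ σ) f (σ - τ) := by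
    intro σ hσ
    have h1 := isValue_unif h hσ
    unfold IsValue at h1 ⊢
    have e : f - algebraMap ℂ F (σ - τ) = t - algebraMap ℂ F σ := by
      rw [hf, map_sub]; ring
    rw [e]
    exact h1
  have hpos : 0 < (κ τ).ord f := by
    have h1 := hval τ hτ
    rw [sub_self] at h1
    exact (IsValue.zero_iff.mp h1).resolve_left hfne
  have hord := h.order_eq f τ hτ hfne hpos.le
  have hcongr : (fun σ => value (κ σ) f) =ᶠ[𝓝 τ] (fun σ => σ - τ) := by
    filter_upwards [Metric.isOpen_ball.mem_nhds hτ] with σ hσ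
    exact value_eq_of_isValue (hval σ hσ)
  rw [analyticOrderAt_congr hcongr, analyticOrderAt_id_sub_const_self] at hord
  have h1 : ((κ τ).ord f).toNat = 1 := by exact_mod_cast hord.symm
  omega

variable [∀ v : Place ℂ F, Module.Finite ℂ v.ResidueField]

/-- A function regular at the centre of a chart is regular at the nearby chart points. -/
theorem regular_nhds (h : IsChart κ ε t) {f : F} (hf : f ∈ (κ 0).toValuationSubring) :
    ∀ᶠ τ in 𝓝 (0 : ℂ), f ∈ (κ τ).toValuationSubring := by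
  have h0 : (0 : ℂ) ∈ Metric.ball (0 : ℂ) ε := Metric.mem_ball_self h.pos
  obtain ⟨c₀, hc₀⟩ := exists_isValue (κ 0) hf
  set w : F := f - algebraMap ℂ F c₀ + 1 with hw
  have hw1 : IsValue (κ 0) w 1 := by
    have h1 := (hc₀.add (IsValue.const (κ 0) (-c₀))).add (IsValue.const (κ 0) 1)
    have e1 : f + algebraMap ℂ F (-c₀) + algebraMap ℂ F 1 = w := by
      rw [hw, map_neg, map_one]; ring
    have e2 : c₀ + -c₀ + 1 = (1 : ℂ) := by ring
    rw [e1, e2] at h1
    exact h1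
  have hw0 : w ≠ 0 := by
    intro h0'
    rw [h0'] at hw1
    have : (1 : ℂ) = 0 := hw1.unique (IsValue.zero_iff.mpr (Or.inl rfl))
    exact one_ne_zero this
  have hordw : (κ 0).ord w = 0 := hw1.ord_eq_zero one_ne_zero
  have hordinv : (κ 0).ord w⁻¹ = 0 := by rw [Place.ord_inv, hordw, neg_zero]
  have han := h.analyticAt w⁻¹ 0 h0 hordinv.ge
  have hne0 : value (κ 0) w⁻¹ ≠ 0 := by
    obtain ⟨c', hc'⟩ := exists_isValue (κ 0) (Place_mem_of_ord_nonneg _ hordinv.ge)
    rw [value_eq_of_isValue hc']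
    intro hc0
    rw [hc0] at hc'
    rcases IsValue.zero_iff.mp hc' with h1 | h1
    · exact inv_ne_zero hw0 h1
    · omega
  filter_upwards [han.continuousAt.eventually_ne hne0] with τ hτ
  by_contra hnot
  apply hτ
  have hwnot : w ∉ (κ τ).toValuationSubring := by
    intro hwm
    apply hnot
    have e : f = w + algebraMap ℂ F (c₀ - 1) := by rw [hw, map_sub, map_one]; ring
    rw [e]
    exact add_mem hwm ((κ τ).algebraMap_mem' _)
  have hgt : 1 < (κ τ).adicValuation w := by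
    rw [mem_iff_adicValuation_le_one] at hwnot
    exact not_le.mp hwnot
  have hlt : (κ τ).adicValuation w⁻¹ < 1 := by
    rw [map_inv₀]
    exact inv_lt_one_of_one_lt₀ hgt
  apply value_eq_of_isValue
  unfold IsValue
  rw [map_zero, sub_zero]
  exact hlt

/-- A spine chart gives a chart germ. -/
theorem isChartGerm_of_isChart (h : IsChart κ ε t) : IsChartGerm κ t where
  unif := by
    filter_upwards [Metric.ball_mem_nhds (0 : ℂ) h.pos] with τ hτ
    exact ord_unif h hτ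
  holo := by
    intro f hf
    have h0 : (0 : ℂ) ∈ Metric.ball (0 : ℂ) ε := Metric.mem_ball_self h.pos
    refine ⟨fun σ => value (κ σ) f, h.analyticAt f 0 h0 (Place_ord_nonneg_of_mem _ hf), ?_⟩
    filter_upwards [regular_nhds h hf] with τ hτ
    obtain ⟨c, hc⟩ := exists_isValue (κ τ) hτ
    rw [value_eq_of_isValue hc]
    exact hc

end Germ

section Sum

variable {F : Type*} [Field F] [Algebra ℂ F]

/-- Riemann: `l(E₀ + E₁ + R₀) ≥ 2g + 1` for three tuples of `g` points. -/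
theorem finrank_ge (hRR : RRFacts ℂ F) (P P' R : Fin (genusFF ℂ F) → Place ℂ F) :
    2 * genusFF ℂ F + 1
      ≤ Module.finrank ℂ ↥(riemannRochSpace (tupleDiv P + tupleDiv P' + tupleDiv R)) := by
  have h := hRR.riemann (tupleDiv P + tupleDiv P' + tupleDiv R)
  have hd : ∀ Q : Fin (genusFF ℂ F) → Place ℂ F,
      Divisor.degree (tupleDiv Q) = (genusFF ℂ F : ℤ) := by
    intro Q
    unfold tupleDiv
    rw [degree_sum_single hRR.deg_one, Fintype.card_fin]
  rw [map_add, map_add, hd, hd, hd] at h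
  unfold ell at h
  omega

/-- Linear equivalence of sums of two tuples, read in `Pic0` through `picMap`. -/
theorem picMap_add_eq (hRR : RRFacts ℂ F) (P₀ : Place ℂ F) {g : ℕ}
    (Z W U V : Fin g → Place ℂ F)
    (h : Divisor.IsPrincipal ((tupleDiv Z + tupleDiv W) - (tupleDiv V + tupleDiv U))) :
    picMap P₀ Z + picMap P₀ W = picMap P₀ U + picMap P₀ V := by
  obtain ⟨hZ, eZ⟩ := picMap_eq hRR P₀ Z
  obtain ⟨hW, eW⟩ := picMap_eq hRR P₀ W
  obtain ⟨hU, eU⟩ := picMap_eq hRR P₀ U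
  obtain ⟨hV, eV⟩ := picMap_eq hRR P₀ V
  rw [eZ, eW, eU, eV, ← Pic0.mk_add, ← Pic0.mk_add]
  unfold Pic0.mk
  rw [QuotientAddGroup.eq, AddSubgroup.mem_addSubgroupOf]
  have e : ((-((⟨_, hZ⟩ : Divisor.degZero (K := ℂ) (F := F)) + ⟨_, hW⟩)
      + ((⟨_, hU⟩ : Divisor.degZero (K := ℂ) (F := F)) + ⟨_, hV⟩) :
        Divisor.degZero (K := ℂ) (F := F)) : Divisor ℂ F)
      = -((tupleDiv Z + tupleDiv W) - (tupleDiv V + tupleDiv U)) := by
    simp only [AddSubgroup.coe_add, NegMemClass.coe_neg]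
    abel
  rw [e]
  exact neg_mem (Divisor.mem_principal.mpr h)

variable [TopologicalSpace (Place ℂ F)]

theorem eventually_ne_of_charts [T2Space (Place ℂ F)] {κ₁ κ₂ : ℂ → Place ℂ F} {ε₁ ε₂ : ℝ}
    {t₁ t₂ : F} (h₁ : IsChart κ₁ ε₁ t₁) (h₂ : IsChart κ₂ ε₂ t₂) (hne : κ₁ 0 ≠ κ₂ 0) :
    ∀ᶠ p in 𝓝 ((0 : ℂ), (0 : ℂ)), κ₁ p.1 ≠ κ₂ p.2 := by
  have hc1 : ContinuousAt κ₁ 0 := h₁.continuousOn.continuousAt (Metric.ball_mem_nhds 0 h₁.pos)
  have hc2 : ContinuousAt κ₂ 0 := h₂.continuousOn.continuousAt (Metric.ball_mem_nhds 0 h₂.pos)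
  have hc : ContinuousAt (fun p : ℂ × ℂ => (κ₁ p.1, κ₂ p.2)) ((0 : ℂ), (0 : ℂ)) :=
    (ContinuousAt.fst' hc1).prodMk (ContinuousAt.snd' hc2)
  have hopen : IsOpen {q : Place ℂ F × Place ℂ F | q.1 ≠ q.2} :=
    isClosed_diagonal.isOpen_compl
  exact hc.eventually (hopen.mem_nhds hne)

/-- **D1-D4 on the spine interface.**  For three pairwise disjoint reduced tuples `P`, `P'`,
`R` of `g` places with `l(∑ P_i) = l(∑ R_i) = 1` and charts at their points, the sum of the two
`Pic0`-charts at `P` and `P'` is read in the chart at `P` by a map `u`, strictly differentiable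
at `0`. -/
theorem exists_sum_law [T2Space (Place ℂ F)] (hRR : RRFacts ℂ F) (P₀ : Place ℂ F)
    (P P' R : Fin (genusFF ℂ F) → Place ℂ F)
    (hP : Function.Injective P) (hP' : Function.Injective P') (hR : Function.Injective R)
    (hPP' : ∀ i j, P i ≠ P' j) (hPR : ∀ i j, P i ≠ R j) (hP'R : ∀ i j, P' i ≠ R j)
    (hl : ell (tupleDiv P) = 1) (hlR : ell (tupleDiv R) = 1)
    (κ κ' κR : Fin (genusFF ℂ F) → ℂ → Place ℂ F) (ε ε' εR : Fin (genusFF ℂ F) → ℝ)
    (t t' tR : Fin (genusFF ℂ F) → F)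
    (hκ : ∀ i, IsChart (κ i) (ε i) (t i)) (hκ' : ∀ i, IsChart (κ' i) (ε' i) (t' i))
    (hκR : ∀ i, IsChart (κR i) (εR i) (tR i))
    (h0 : ∀ i, κ i 0 = P i) (h0' : ∀ i, κ' i 0 = P' i) (h0R : ∀ i, κR i 0 = R i) :
    ∃ (u : (Fin (genusFF ℂ F) → ℂ) × (Fin (genusFF ℂ F) → ℂ) → (Fin (genusFF ℂ F) → ℂ))
      (u' : ((Fin (genusFF ℂ F) → ℂ) × (Fin (genusFF ℂ F) → ℂ)) →L[ℂ] (Fin (genusFF ℂ F) → ℂ)),
      HasStrictFDerivAt u u' 0 ∧ u 0 = 0 ∧
      ∀ᶠ p in 𝓝 (0 : (Fin (genusFF ℂ F) → ℂ) × (Fin (genusFF ℂ F) → ℂ)),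
        picChart P₀ P κ (u p) = picChart P₀ P κ p.1 + picChart P₀ P' κ' p.2 := by
  classical
  have := hRR.principal
  have hfin : ∀ v : Place ℂ F, Module.Finite ℂ v.ResidueField := fun v =>
    Module.finite_of_finrank_pos (by
      have h1 : Module.finrank ℂ v.ResidueField = 1 := hRR.deg_one v
      rw [h1]
      exact one_pos)
  have hE : ∀ (Q : Fin (genusFF ℂ F) → Place ℂ F) (κQ : Fin (genusFF ℂ F) → ℂ → Place ℂ F),
      (∀ i, κQ i 0 = Q i) → (∑ i, Finsupp.single (κQ i 0) (1 : ℤ)) = tupleDiv Q := by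
    intro Q κQ hQ
    unfold tupleDiv
    exact Finset.sum_congr rfl fun i _ => by rw [hQ i]
  -- the `3g` base points are pairwise distinct
  have hbase : ∀ a b : Fin (genusFF ℂ F) ⊕ Fin (genusFF ℂ F) ⊕ Fin (genusFF ℂ F), a ≠ b →
      Sum.elim κ (Sum.elim κ' κR) a 0 ≠ Sum.elim κ (Sum.elim κ' κR) b 0 := by
    rintro (i | i | i) (j | j | j) hab
    · simp only [Sum.elim_inl, h0]
      exact fun h => hab (congrArg _ (hP h))
    · simp only [Sum.elim_inl, Sum.elim_inr, h0, h0']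
      exact hPP' i j
    · simp only [Sum.elim_inl, Sum.elim_inr, h0, h0R]
      exact hPR i j
    · simp only [Sum.elim_inl, Sum.elim_inr, h0, h0']
      exact fun h => hPP' j i h.symm
    · simp only [Sum.elim_inl, Sum.elim_inr, h0']
      exact fun h => hab (congrArg _ (congrArg _ (hP' h)))
    · simp only [Sum.elim_inl, Sum.elim_inr, h0', h0R]
      exact hP'R i j
    · simp only [Sum.elim_inl, Sum.elim_inr, h0, h0R]
      exact fun h => hPR j i h.symm
    · simp only [Sum.elim_inl, Sum.elim_inr, h0', h0R]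
      exact fun h => hP'R j i h.symm
    · simp only [Sum.elim_inr, h0R]
      exact fun h => hab (congrArg _ (congrArg _ (hR h)))
  have hchart : ∀ a : Fin (genusFF ℂ F) ⊕ Fin (genusFF ℂ F) ⊕ Fin (genusFF ℂ F),
      IsChart (Sum.elim κ (Sum.elim κ' κR) a) (Sum.elim ε (Sum.elim ε' εR) a)
        (Sum.elim t (Sum.elim t' tR) a) := by
    rintro (i | i | i)
    · exact hκ i
    · exact hκ' i
    · exact hκR i
  obtain ⟨u, u', hu, hu0, hev⟩ := exists_chart_sum κ κ' κR t t' tR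
    (fun i => isChartGerm_of_isChart (hκ i)) (fun i => isChartGerm_of_isChart (hκ' i))
    (fun i => isChartGerm_of_isChart (hκR i))
    (fun a b hab => eventually_ne_of_charts (hchart a) (hchart b) (hbase a b hab))
    (by rw [hE P κ h0, hE P' κ' h0', hE R κR h0R]; exact finrank_ge hRR P P' R)
    (by rw [hE P κ h0]; exact const_of_ell_eq_one P hl)
    (by rw [hE R κR h0R]; exact const_of_ell_eq_one R hlR)
  refine ⟨u, u', hu, hu0, ?_⟩
  filter_upwards [hev] with p hp
  rw [hE P' κ' h0'] at hp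
  have key := picMap_add_eq hRR P₀ (fun i => κ i (p.1 i)) (fun i => κ' i (p.2 i))
    (fun i => κ i (u p i)) P' hp
  unfold picChart
  rw [eq_sub_of_add_eq key]
  abel

end Sum

end Fermat.Agent.S27.Spine.DH5906
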