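/-
S27 SPINE leaf D: in the chart of C5 the group law of `Pic0` is almost additive
(D1–D4 of the route: implicit function theorem on zeros of sections of a fixed `L(M)`).
FROZEN statement.

Proof (helper5906): two further non-special tuples `P'`, `R` (A7) with charts; the concrete
chart-sum theorem `DGlue5906.exists_chart_sum` (on the abstract core `DAbs`, helper9962) applied
to `(P, P', R)` and `(P', P, R)`; the two-chart trick `DAbs.exists_groupLaw` with the injectivity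
of the chart from C5.
-/
import Fermat.Agent.S27.Spine.C5
import Fermat.Agent.S27.Spine.DAux5906

set_option autoImplicit false

open AlgebraicCurve

namespace Fermat.Agent.S27.Spine

variable {F : Type*} [Field F] [Algebra ℂ F] [TopologicalSpace (Place ℂ F)]

/-- **D.** In the chart `ψ = picChart P₀ P κ` of C5 there is a local group law `a` with
`ψ (a x y) = ψ x + ψ y` near `(0,0)` which is almost additive: `‖a x y - x - y‖ ≤ ε' ‖y‖`. -/
theorem pic_chart_add (hRS : IsRS F) (hRR : RRFacts ℂ F) (P₀ : Place ℂ F)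
    (P : Fin (genusFF ℂ F) → Place ℂ F) (hP : Function.Injective P) (hl : ell (tupleDiv P) = 1)
    (κ : Fin (genusFF ℂ F) → ℂ → Place ℂ F) (ε : Fin (genusFF ℂ F) → ℝ)
    (t : Fin (genusFF ℂ F) → F) (hκ : ∀ i, IsChart (κ i) (ε i) (t i)) (h0 : ∀ i, κ i 0 = P i) :
    ∃ a : (Fin (genusFF ℂ F) → ℂ) → (Fin (genusFF ℂ F) → ℂ) → (Fin (genusFF ℂ F) → ℂ),
      (∃ δ : ℝ, 0 < δ ∧ ∀ x y, ‖x‖ < δ → ‖y‖ < δ →
        picChart P₀ P κ (a x y) = picChart P₀ P κ x + picChart P₀ P κ y) ∧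
      (∀ ε' : ℝ, 0 < ε' → ∃ δ : ℝ, 0 < δ ∧ ∀ x y, ‖x‖ < δ → ‖y‖ < δ →
        ‖a x y - x - y‖ ≤ ε' * ‖y‖) := by
  classical
  have hT2 : T2Space (Place ℂ F) := hRS.t2
  -- two further non-special reduced tuples, disjoint from `P` and from each other
  obtain ⟨P', hP'inj, hP'S, hl'⟩ := hRR.nonspecial (Finset.univ.image P)
  obtain ⟨R, hRinj, hRS', hlR⟩ := hRR.nonspecial (Finset.univ.image P ∪ Finset.univ.image P')
  have hPP' : ∀ i j, P i ≠ P' j := fun i j h =>
    hP'S j (h ▸ Finset.mem_image_of_mem P (Finset.mem_univ i))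
  have hPR : ∀ i j, P i ≠ R j := fun i j h =>
    hRS' j (h ▸ Finset.mem_union_left _ (Finset.mem_image_of_mem P (Finset.mem_univ i)))
  have hP'R : ∀ i j, P' i ≠ R j := fun i j h =>
    hRS' j (h ▸ Finset.mem_union_right _ (Finset.mem_image_of_mem P' (Finset.mem_univ i)))
  -- charts at their points
  choose κ' ε' t' hκ' h0' using fun i => hRS.chart (P' i)
  choose κR εR tR hκR h0R using fun i => hRS.chart (R i)
  -- injectivity of the chart (C5)
  obtain ⟨ρ, hρ, -, hinj, -, -⟩ := pic_chart hRS hRR P₀ P hP hl κ ε t hκ h0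
  -- the two mixed chart-sum maps
  obtain ⟨u, u', hu, hu0, huev⟩ := DH5906.exists_sum_law hRR P₀ P P' R hP hP'inj hRinj
    hPP' hPR hP'R hl hlR κ κ' κR ε ε' εR t t' tR hκ hκ' hκR h0 h0' h0R
  obtain ⟨v, v', hv, hv0, hvev⟩ := DH5906.exists_sum_law hRR P₀ P' P R hP'inj hP hRinj
    (fun i j h => hPP' j i h.symm) hP'R hPR hl' hlR κ' κ κR ε' ε εR t' t tR hκ' hκ hκR h0' h0 h0R
  have hψ0 : ∀ (Q : Fin (genusFF ℂ F) → Place ℂ F)
      (κQ : Fin (genusFF ℂ F) → ℂ → Place ℂ F), (∀ i, κQ i 0 = Q i) →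
      picChart P₀ Q κQ 0 = 0 := by
    intro Q κQ hQ
    unfold picChart
    have e : (fun i => κQ i ((0 : Fin (genusFF ℂ F) → ℂ) i)) = Q := funext fun i => hQ i
    rw [e, sub_self]
  obtain ⟨a, a', ha, ha0, hadd, hx1, hy1, hest⟩ :=
    DAbs.exists_groupLaw (picChart P₀ P κ) (picChart P₀ P' κ') (hψ0 P κ h0) (hψ0 P' κ' h0')
      ρ hρ hinj u v u' v' hu hv hu0 hv0 huev hvev
  refine ⟨fun x y => a (x, y), ?_, fun ε' hε' => hest ε' hε'⟩
  rw [Metric.eventually_nhds_iff] at hadd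
  obtain ⟨δ, hδ, hb⟩ := hadd
  refine ⟨δ, hδ, fun x y hx hy => ?_⟩
  exact hb (by rw [dist_eq_norm, sub_zero, Prod.norm_def]; exact max_lt hx hy)

end Fermat.Agent.S27.Spine
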