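/-
S27 SPINE, T1: assembly.  `IsRS F` (package B) + `RRFacts ℂ F` (package A) ⟹
`#Pic0(F)[n] = n^(2g)`, from the leaves C3, C5, D and package E (`CGC.card_torsion_eq_pow`).
This file has no `sorry` of its own.
-/
import Fermat.Agent.S27.Spine.D
import Fermat.Agent.S27.CompactGroupCount

set_option autoImplicit false

open AlgebraicCurve Metric Set

namespace Fermat.Agent.S27.Spine

/-- Package E transported to a chart on an arbitrary finite-dimensional real normed space. -/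
theorem card_torsion_of_chart {G : Type*} [AddCommGroup G] [TopologicalSpace G]
    [IsTopologicalAddGroup G] [CompactSpace G] [T2Space G] [ConnectedSpace G]
    {E : Type*} [NormedAddCommGroup E] [NormedSpace ℝ E] [FiniteDimensional ℝ E]
    (ψ : E → G) (a : E → E → E) (ρ : ℝ) (hρ : 0 < ρ) (hψ0 : ψ 0 = 0)
    (hcont : ContinuousOn ψ (ball 0 ρ)) (hinj : InjOn ψ (ball 0 ρ))
    (hopen : ∀ U : Set E, U ⊆ ball 0 ρ → IsOpen U → IsOpen (ψ '' U))
    (hadd : ∃ δ : ℝ, 0 < δ ∧ ∀ x y, ‖x‖ < δ → ‖y‖ < δ → ψ (a x y) = ψ x + ψ y)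
    (hest : ∀ ε : ℝ, 0 < ε → ∃ δ : ℝ, 0 < δ ∧ ∀ x y, ‖x‖ < δ → ‖y‖ < δ →
      ‖a x y - x - y‖ ≤ ε * ‖y‖)
    (n : ℕ) (hn : 0 < n) :
    Nat.card {x : G // n • x = 0} = n ^ Module.finrank ℝ E := by
  set m := Module.finrank ℝ E with hm
  let Λ : E ≃L[ℝ] (Fin m → ℝ) := ContinuousLinearEquiv.ofFinrankEq (by simp [hm])
  set C : ℝ := ‖(Λ.symm : (Fin m → ℝ) →L[ℝ] E)‖ + 1 with hC
  set C' : ℝ := ‖(Λ : E →L[ℝ] (Fin m → ℝ))‖ + 1 with hC'
  have hCpos : 0 < C := by positivity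
  have hC'pos : 0 < C' := by positivity
  have hΛs : ∀ x, ‖Λ.symm x‖ ≤ C * ‖x‖ := fun x =>
    ((Λ.symm : (Fin m → ℝ) →L[ℝ] E).le_opNorm x).trans
      (mul_le_mul_of_nonneg_right (by simp [hC]) (norm_nonneg x))
  have hΛ : ∀ y, ‖Λ y‖ ≤ C' * ‖y‖ := fun y =>
    ((Λ : E →L[ℝ] (Fin m → ℝ)).le_opNorm y).trans
      (mul_le_mul_of_nonneg_right (by simp [hC']) (norm_nonneg y))
  have hρ' : 0 < ρ / C := div_pos hρ hCpos
  have hball : ∀ x : Fin m → ℝ, ‖x‖ < ρ / C → Λ.symm x ∈ ball (0 : E) ρ := by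
    intro x hx
    rw [mem_ball_zero_iff]
    calc ‖Λ.symm x‖ ≤ C * ‖x‖ := hΛs x
      _ < C * (ρ / C) := by gcongr
      _ = ρ := by field_simp
  have hmaps : MapsTo Λ.symm (ball (0 : Fin m → ℝ) (ρ / C)) (ball (0 : E) ρ) := fun x hx =>
    hball x (by simpa using hx)
  refine CGC.card_torsion_eq_pow (ψ ∘ Λ.symm) (fun x y => Λ (a (Λ.symm x) (Λ.symm y)))
    (ρ / C) hρ' (by simp [hψ0]) ?_ ?_ ?_ ?_ ?_ n hn
  · exact hcont.comp Λ.symm.continuous.continuousOn hmaps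
  · exact hinj.comp Λ.symm.injective.injOn hmaps
  · intro r _ hr
    rw [image_comp]
    refine hopen _ ?_ (Λ.symm.toHomeomorph.isOpenMap _ isOpen_ball)
    rintro _ ⟨x, hx, rfl⟩
    exact hball x (lt_of_lt_of_le (by simpa using hx) hr)
  · obtain ⟨δ₁, hδ₁, hadd₁⟩ := hadd
    obtain ⟨δ₂, hδ₂, hest₂⟩ := hest 1 one_pos
    refine ⟨min (min (δ₁ / C) (δ₂ / C)) (ρ / C / (3 * C * C')), by positivity, ?_⟩
    intro x y hx hy
    have hx1 : ‖Λ.symm x‖ < δ₁ := by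
      calc ‖Λ.symm x‖ ≤ C * ‖x‖ := hΛs x
        _ < C * (δ₁ / C) := by
          gcongr
          exact lt_of_lt_of_le hx ((min_le_left _ _).trans (min_le_left _ _))
        _ = δ₁ := by field_simp
    have hy1 : ‖Λ.symm y‖ < δ₁ := by
      calc ‖Λ.symm y‖ ≤ C * ‖y‖ := hΛs y
        _ < C * (δ₁ / C) := by
          gcongr
          exact lt_of_lt_of_le hy ((min_le_left _ _).trans (min_le_left _ _))
        _ = δ₁ := by field_simp
    have hx2 : ‖Λ.symm x‖ < δ₂ := by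
      calc ‖Λ.symm x‖ ≤ C * ‖x‖ := hΛs x
        _ < C * (δ₂ / C) := by
          gcongr
          exact lt_of_lt_of_le hx ((min_le_left _ _).trans (min_le_right _ _))
        _ = δ₂ := by field_simp
    have hy2 : ‖Λ.symm y‖ < δ₂ := by
      calc ‖Λ.symm y‖ ≤ C * ‖y‖ := hΛs y
        _ < C * (δ₂ / C) := by
          gcongr
          exact lt_of_lt_of_le hy ((min_le_left _ _).trans (min_le_right _ _))
        _ = δ₂ := by field_simp
    have hx3 : ‖x‖ < ρ / C / (3 * C * C') := lt_of_lt_of_le hx (min_le_right _ _)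
    have hy3 : ‖y‖ < ρ / C / (3 * C * C') := lt_of_lt_of_le hy (min_le_right _ _)
    constructor
    · have h1 := hest₂ _ _ hx2 hy2
      have h2 : ‖a (Λ.symm x) (Λ.symm y)‖ ≤ ‖Λ.symm x‖ + 2 * ‖Λ.symm y‖ := by
        have : a (Λ.symm x) (Λ.symm y)
            = (a (Λ.symm x) (Λ.symm y) - Λ.symm x - Λ.symm y) + Λ.symm x + Λ.symm y := by abel
        calc ‖a (Λ.symm x) (Λ.symm y)‖
            = ‖(a (Λ.symm x) (Λ.symm y) - Λ.symm x - Λ.symm y) + Λ.symm x + Λ.symm y‖ := by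
              rw [← this]
          _ ≤ ‖a (Λ.symm x) (Λ.symm y) - Λ.symm x - Λ.symm y‖ + ‖Λ.symm x‖ + ‖Λ.symm y‖ :=
              norm_add₃_le
          _ ≤ 1 * ‖Λ.symm y‖ + ‖Λ.symm x‖ + ‖Λ.symm y‖ := by gcongr
          _ = ‖Λ.symm x‖ + 2 * ‖Λ.symm y‖ := by ring
      calc ‖Λ (a (Λ.symm x) (Λ.symm y))‖ ≤ C' * ‖a (Λ.symm x) (Λ.symm y)‖ := hΛ _
        _ ≤ C' * (‖Λ.symm x‖ + 2 * ‖Λ.symm y‖) := by gcongr
        _ ≤ C' * (C * ‖x‖ + 2 * (C * ‖y‖)) := by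
            gcongr
            · exact hΛs x
            · exact hΛs y
        _ < C' * (C * (ρ / C / (3 * C * C')) + 2 * (C * (ρ / C / (3 * C * C')))) := by gcongr
        _ = ρ / C := by field_simp; ring
    · simp only [Function.comp_apply, ContinuousLinearEquiv.symm_apply_apply]
      exact hadd₁ _ _ hx1 hy1
  · intro ε hε
    obtain ⟨δ₂, hδ₂, hest₂⟩ := hest (ε / (C * C')) (by positivity)
    refine ⟨δ₂ / C, by positivity, ?_⟩
    intro x y hx hy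
    have hx2 : ‖Λ.symm x‖ < δ₂ := by
      calc ‖Λ.symm x‖ ≤ C * ‖x‖ := hΛs x
        _ < C * (δ₂ / C) := by gcongr
        _ = δ₂ := by field_simp
    have hy2 : ‖Λ.symm y‖ < δ₂ := by
      calc ‖Λ.symm y‖ ≤ C * ‖y‖ := hΛs y
        _ < C * (δ₂ / C) := by gcongr
        _ = δ₂ := by field_simp
    have h1 := hest₂ _ _ hx2 hy2
    have h3 : Λ (a (Λ.symm x) (Λ.symm y)) - x - y
        = Λ (a (Λ.symm x) (Λ.symm y) - Λ.symm x - Λ.symm y) := by
      simp [map_sub]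
    rw [h3]
    calc ‖Λ (a (Λ.symm x) (Λ.symm y) - Λ.symm x - Λ.symm y)‖
        ≤ C' * ‖a (Λ.symm x) (Λ.symm y) - Λ.symm x - Λ.symm y‖ := hΛ _
      _ ≤ C' * (ε / (C * C') * ‖Λ.symm y‖) := by gcongr
      _ ≤ C' * (ε / (C * C') * (C * ‖y‖)) := by
          gcongr
          exact hΛs y
      _ = ε * ‖y‖ := by field_simp

variable {F : Type*} [Field F] [Algebra ℂ F]

/-- **T1 (abstract form).** -/
theorem card_torsion_of_isRS [TopologicalSpace (Place ℂ F)] (hRS : IsRS F) (hRR : RRFacts ℂ F)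
    (n : ℕ) (hn : 0 < n) :
    Nat.card (Pic0.torsion ℂ F n) = n ^ (2 * genusFF ℂ F) := by
  classical
  have := hRR.infinite
  obtain ⟨P₀⟩ : Nonempty (Place ℂ F) := inferInstance
  obtain ⟨P, hPinj, -, hl⟩ := hRR.nonspecial ∅
  choose κ ε t hκ using fun i => hRS.chart (P i)
  have hκ1 := fun i => (hκ i).1
  have hκ0 := fun i => (hκ i).2
  let _ : TopologicalSpace (Pic0 ℂ F) := picTop P₀
  obtain ⟨hG1, hG2, hG3, hG4⟩ := pic_topGroup hRS hRR P₀
  obtain ⟨ρ₁, hρ₁, -, hinj₁, hcont₁, hopen₁⟩ := pic_chart hRS hRR P₀ P hPinj hl κ ε t hκ1 hκ0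
  obtain ⟨a₁, hadd₁, hest₁⟩ := pic_chart_add hRS hRR P₀ P hPinj hl κ ε t hκ1 hκ0
  have h0 : picChart P₀ P κ 0 = 0 := by
    have : (fun i => κ i 0) = P := funext fun i => hκ0 i
    simp only [picChart, Pi.zero_apply, this, sub_self]
  have key := card_torsion_of_chart (G := Pic0 ℂ F) (E := Fin (genusFF ℂ F) → ℂ)
    (picChart P₀ P κ) a₁ ρ₁ hρ₁ h0 hcont₁ hinj₁ hopen₁ hadd₁ hest₁ n hn
  have hfin : Module.finrank ℝ (Fin (genusFF ℂ F) → ℂ) = 2 * genusFF ℂ F := by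
    rw [Module.finrank_pi_fintype]
    simp [Complex.finrank_real_complex, mul_comm]
  rw [hfin] at key
  rw [← key]
  refine Nat.card_congr (Equiv.subtypeEquivRight fun x => ?_)
  rw [Pic0.mem_torsion, natCast_zsmul]

/-- **T1.** -/
theorem card_torsion_complex (hRR : RRFacts ℂ F)
    (hB : ∃ top : TopologicalSpace (Place ℂ F), @IsRS F _ _ top) (n : ℕ) (hn : 0 < n) :
    Nat.card (Pic0.torsion ℂ F n) = n ^ (2 * genusFF ℂ F) := by
  obtain ⟨top, hRS⟩ := hB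
  exact @card_torsion_of_isRS F _ _ top hRS hRR n hn

end Fermat.Agent.S27.Spine
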