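/-
S27 SPINE, auxiliary library for the leaves (helper3806): calculus of `HasValue` / `value`
at places of degree one, and the basic facts about a chart coordinate `t`.
Mathlib + Prelude + Spine/Defs + landed S24 lemmas only.  Sorry-free.
-/
import Fermat.Agent.S27.Spine.Defs
import Fermat.Agent.S24.A564.LocalDiff

set_option autoImplicit false

open AlgebraicCurve

namespace Fermat.Agent.S27.Spine.Val

open Fermat.Agent.S24.A564

section General

variable {K F : Type*} [Field K] [Field F] [Algebra K F]

theorem val_const (Q : Place K F) {c : K} (hc : c ≠ 0) :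
    Q.adicValuation (algebraMap K F c) = 1 := by
  have h0 : algebraMap K F c ≠ 0 := by
    rwa [ne_eq, map_eq_zero_iff _ (algebraMap K F).injective]
  rw [Q.adicValuation_eq_exp_neg_ord h0, LD.ord_algebraMap, neg_zero, WithZero.exp_zero]

/-- `HasValue` in terms of the valuation: `f - c` lies in the maximal ideal. -/
theorem hasValue_iff (Q : Place K F) (f : F) (c : K) :
    HasValue Q f c ↔ Q.adicValuation (f - algebraMap K F c) < 1 := by
  unfold HasValue
  rcases eq_or_ne (f - algebraMap K F c) 0 with h | h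
  · rw [h, map_zero]
    simp only [zero_lt_one, iff_true]
    exact Or.inl (sub_eq_zero.mp h)
  · rw [Q.adicValuation_eq_exp_neg_ord h, ← WithZero.exp_zero, WithZero.exp_lt_exp]
    constructor
    · rintro (h' | h')
      · exact absurd (sub_eq_zero.mpr h') h
      · omega
    · intro h'
      exact Or.inr (by omega)

theorem hasValue_const (Q : Place K F) (c : K) : HasValue Q (algebraMap K F c) c := Or.inl rfl

theorem hv_val_le_one {Q : Place K F} {f : F} {c : K} (h : HasValue Q f c) :
    Q.adicValuation f ≤ 1 := by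
  rw [hasValue_iff] at h
  have : f = (f - algebraMap K F c) + algebraMap K F c := by ring
  rw [this]
  exact (Valuation.map_add _ _ _).trans (max_le h.le (Q.adicValuation_algebraMap_le_one c))

theorem hv_mem {Q : Place K F} {f : F} {c : K} (h : HasValue Q f c) :
    f ∈ Q.toValuationSubring :=
  (LD.adicValuation_le_one_iff Q f).mp (hv_val_le_one h)

theorem hv_ord_nonneg {Q : Place K F} {f : F} {c : K} (h : HasValue Q f c) :
    0 ≤ Q.ord f := by
  rcases Q.adicValuation_le_one_iff.mp (hv_val_le_one h) with h0 | h0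
  · rw [h0]; exact le_of_eq Q.ord_zero.symm
  · exact h0

theorem hv_add {Q : Place K F} {f g : F} {c e : K} (hf : HasValue Q f c)
    (hg : HasValue Q g e) : HasValue Q (f + g) (c + e) := by
  rw [hasValue_iff] at hf hg ⊢
  have : f + g - algebraMap K F (c + e) = (f - algebraMap K F c) + (g - algebraMap K F e) := by
    rw [map_add]; ring
  rw [this]
  exact (Valuation.map_add _ _ _).trans_lt (max_lt hf hg)

theorem hv_mul {Q : Place K F} {f g : F} {c e : K} (hf : HasValue Q f c)
    (hg : HasValue Q g e) : HasValue Q (f * g) (c * e) := by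
  have hg1 := hv_val_le_one hg
  rw [hasValue_iff] at hf hg ⊢
  have : f * g - algebraMap K F (c * e)
      = (f - algebraMap K F c) * g + algebraMap K F c * (g - algebraMap K F e) := by
    rw [map_mul]; ring
  rw [this]
  refine (Valuation.map_add _ _ _).trans_lt (max_lt ?_ ?_)
  · rw [map_mul]
    exact (mul_le_of_le_one_right' hg1).trans_lt hf
  · rw [map_mul]
    exact (mul_le_of_le_one_left' (Q.adicValuation_algebraMap_le_one c)).trans_lt hg

theorem hv_smul {Q : Place K F} {g : F} {e : K} (a : K) (hg : HasValue Q g e) :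
    HasValue Q (a • g) (a * e) := by
  rw [Algebra.smul_def]
  exact hv_mul (hasValue_const Q a) hg

theorem hv_sub_const {Q : Place K F} {f : F} {c : K} (hf : HasValue Q f c) (a : K) :
    HasValue Q (f - algebraMap K F a) (c - a) := by
  rw [hasValue_iff] at hf ⊢
  have : f - algebraMap K F a - algebraMap K F (c - a) = f - algebraMap K F c := by
    rw [map_sub]; ring
  rwa [this]

theorem hv_sum {Q : Place K F} {ι : Type*} (s : Finset ι) (f : ι → F) (c : ι → K)
    (h : ∀ i ∈ s, HasValue Q (f i) (c i)) : HasValue Q (∑ i ∈ s, f i) (∑ i ∈ s, c i) := by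
  classical
  induction s using Finset.induction_on with
  | empty =>
    simpa using hasValue_const Q (0 : K)
  | insert a s ha ih =>
    rw [Finset.sum_insert ha, Finset.sum_insert ha]
    exact hv_add (h a (Finset.mem_insert_self a s))
      (ih fun i hi => h i (Finset.mem_insert_of_mem hi))

/-- The value is unique. -/
theorem hv_unique {Q : Place K F} {f : F} {c c' : K} (h : HasValue Q f c)
    (h' : HasValue Q f c') : c = c' := by
  by_contra hne
  rw [hasValue_iff] at h h'
  have h1 : algebraMap K F (c - c') = (f - algebraMap K F c') - (f - algebraMap K F c) := by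
    rw [map_sub]; ring
  have h2 : Q.adicValuation (algebraMap K F (c - c')) < 1 := by
    rw [h1]
    exact (Valuation.map_sub _ _ _).trans_lt (max_lt h' h)
  rw [val_const Q (sub_ne_zero.mpr hne)] at h2
  exact lt_irrefl _ h2

theorem hv_value_eq {Q : Place K F} {f : F} {c : K} (h : HasValue Q f c) :
    value Q f = c := by
  classical
  have hex : ∃ c, HasValue Q f c := ⟨c, h⟩
  unfold value
  rw [dif_pos hex]
  exact hv_unique hex.choose_spec h

/-- At a place of degree one, every element of the valuation ring has a value. -/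
theorem exists_hasValue (Q : Place K F) (hdeg : Q.deg = 1) {f : F}
    (hf : f ∈ Q.toValuationSubring) : ∃ c : K, HasValue Q f c := by
  have h1 : Module.finrank K Q.ResidueField = 1 := hdeg
  have hone : (1 : Q.ResidueField) ≠ 0 := one_ne_zero
  obtain ⟨c, hc⟩ := (finrank_eq_one_iff_of_nonzero' (1 : Q.ResidueField) hone).mp h1
    (IsLocalRing.residue Q.toValuationSubring ⟨f, hf⟩)
  refine ⟨c, ?_⟩
  set a : Q.toValuationSubring := ⟨f, hf⟩ - algebraMap K Q.toValuationSubring c with ha
  have hres : IsLocalRing.residue Q.toValuationSubring a = 0 := by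
    rw [ha, map_sub, ← hc, Algebra.smul_def, mul_one]
    exact sub_eq_zero.mpr rfl
  have hmem : a ∈ IsLocalRing.maximalIdeal Q.toValuationSubring :=
    (IsLocalRing.residue_eq_zero_iff a).mp hres
  have hcoe : (a : F) = f - algebraMap K F c := rfl
  rcases eq_or_ne a 0 with h0 | h0
  · left
    have : (a : F) = 0 := by rw [h0]; rfl
    rw [hcoe] at this
    exact sub_eq_zero.mp this
  · right
    rw [← hcoe]
    exact (LD.ord_pos_iff_mem_maximalIdeal Q a h0).mpr hmem

theorem mem_of_ord_nonneg (Q : Place K F) {f : F} (hf : 0 ≤ Q.ord f) :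
    f ∈ Q.toValuationSubring :=
  (LD.adicValuation_le_one_iff Q f).mp (Q.adicValuation_le_one_iff.mpr (Or.inr hf))

/-- At a place of degree one, a regular element has its `value` as value. -/
theorem hasValue_value (Q : Place K F) (hdeg : Q.deg = 1) {f : F} (hf : 0 ≤ Q.ord f) :
    HasValue Q f (value Q f) := by
  obtain ⟨c, hc⟩ := exists_hasValue Q hdeg (mem_of_ord_nonneg Q hf)
  rw [hv_value_eq hc]
  exact hc

/-- An element regular at `Q` with nonzero value has order `0`. -/
theorem hv_ord_eq_zero {Q : Place K F} {f : F} {c : K} (h : HasValue Q f c) (hc : c ≠ 0) :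
    Q.ord f = 0 := by
  rw [hasValue_iff] at h
  have h1 : Q.adicValuation f = 1 := by
    have : f = algebraMap K F c + (f - algebraMap K F c) := by ring
    rw [this, Valuation.map_add_eq_of_lt_left _ (by rwa [val_const Q hc]), val_const Q hc]
  have hf : f ≠ 0 := by
    rintro rfl
    rw [map_zero] at h1
    exact zero_ne_one h1
  rw [Q.adicValuation_eq_exp_neg_ord hf, ← WithZero.exp_zero, WithZero.exp_inj] at h1
  omega

open Classical in
/-- The multiplicity of a place in the divisor of a tuple. -/
theorem tupleDiv_apply {d : ℕ} (T : Fin d → Place K F) (Q : Place K F) :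
    tupleDiv T Q = ((Finset.univ.filter fun i => T i = Q).card : ℤ) := by
  unfold tupleDiv
  rw [Finsupp.finsetSum_apply, Finset.card_filter]
  push_cast
  refine Finset.sum_congr rfl fun i _ => ?_
  rw [Finsupp.single_apply]

end General

section Chart

variable {F : Type*} [Field F] [Algebra ℂ F] [TopologicalSpace (Place ℂ F)]

theorem chart_value_t {κ : ℂ → Place ℂ F} {ε : ℝ} {t : F} (hκ : IsChart κ ε t) {σ : ℂ}
    (hσ : σ ∈ Metric.ball (0 : ℂ) ε) : value (κ σ) t = σ :=
  hv_value_eq (hκ.hasValue_unif σ hσ)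

theorem chart_t_ne_zero {κ : ℂ → Place ℂ F} {ε : ℝ} {t : F} (hκ : IsChart κ ε t) : t ≠ 0 := by
  rintro rfl
  have hmem : ((ε / 2 : ℝ) : ℂ) ∈ Metric.ball (0 : ℂ) ε := by
    rw [Metric.mem_ball, dist_zero_right, Complex.norm_real, Real.norm_eq_abs,
      abs_of_pos (half_pos hκ.pos)]
    linarith [hκ.pos]
  have h := hκ.hasValue_unif _ hmem
  have h0 : HasValue (κ ((ε / 2 : ℝ) : ℂ)) (0 : F) (0 : ℂ) := by
    simpa using hasValue_const (κ ((ε / 2 : ℝ) : ℂ)) (0 : ℂ)
  have := hv_unique h h0
  have hε := hκ.pos
  rw [Complex.ofReal_eq_zero] at this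
  linarith

/-- Away from the centre, the chart coordinate is a unit. -/
theorem chart_ord_t_of_ne {κ : ℂ → Place ℂ F} {ε : ℝ} {t : F} (hκ : IsChart κ ε t) {τ : ℂ}
    (hτ : τ ∈ Metric.ball (0 : ℂ) ε) (h0 : τ ≠ 0) : (κ τ).ord t = 0 :=
  hv_ord_eq_zero (hκ.hasValue_unif τ hτ) h0

/-- At the centre, the chart coordinate is a uniformizer. -/
theorem chart_ord_t_zero {κ : ℂ → Place ℂ F} {ε : ℝ} {t : F} (hκ : IsChart κ ε t) :
    (κ 0).ord t = 1 := by
  have h0mem : (0 : ℂ) ∈ Metric.ball (0 : ℂ) ε := Metric.mem_ball_self hκ.pos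
  have hreg : 0 ≤ (κ 0).ord t := hv_ord_nonneg (hκ.hasValue_unif 0 h0mem)
  have hord := hκ.order_eq t 0 h0mem (chart_t_ne_zero hκ) hreg
  have hcongr : (fun σ => value (κ σ) t) =ᶠ[nhds (0 : ℂ)] fun σ => σ := by
    filter_upwards [Metric.ball_mem_nhds (0 : ℂ) hκ.pos] with σ hσ
    exact chart_value_t hκ hσ
  rw [analyticOrderAt_congr hcongr] at hord
  have hid : analyticOrderAt (fun σ : ℂ => σ) 0 = 1 := by
    have : (fun σ : ℂ => σ) = fun σ => (σ - 0) ^ 1 := by funext σ; simp
    rw [this]
    have := analyticOrderAt_centeredMonomial (𝕜 := ℂ) (z₀ := (0 : ℂ)) (n := 1)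
    simpa using this
  rw [hid] at hord
  have h1 : ((κ 0).ord t).toNat = 1 := by
    have := hord.symm
    exact_mod_cast this
  omega

end Chart

end Fermat.Agent.S27.Spine.Val
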