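import Fermat.Agent.S27.Spine.T1
import Fermat.Agent.S27.Spine.FromA
import Fermat.Agent.S27.Spine.B.Main
import Fermat.Agent.S27.Lef.Top
import Fermat.Agent.S27.RevBridge5054

/-!
S27: the complex case in the form consumed by the Lefschetz transfer (package F):
`Spine.countOverComplex : Lef.CountOverComplex`.  Glue (helper242) between
* the Spine (helper9686): `card_torsion_complex`, `rrFacts_of_isCurveOver`,
* B-MAIN (helper9326): `exists_isRS`,
* the reverse bridge `IsFunctionField ⟹ IsCurveOver + EssFiniteType` (helper5054, `RevBridge5054`).
-/

set_option autoImplicit false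

open AlgebraicCurve

namespace Fermat.Agent.S27.Spine

/-- The torsion count over `ℂ` for function fields in one variable. -/
theorem countOverComplex : Lef.CountOverComplex := by
  intro F _ _ hFF n hn
  haveI : IsCurveOver ℂ F := RevBridge5054.isCurveOver_of_exists hFF
  haveI : Algebra.EssFiniteType ℂ F := RevBridge5054.essFiniteType_of_exists hFF
  have hRR : RRFacts ℂ F := rrFacts_of_isCurveOver
  exact card_torsion_complex hRR (exists_isRS hRR) n hn

end Fermat.Agent.S27.Spine
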